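/-
S25 / block D (Dictionary), section ALG, task S25-D-ALG2 (helper289).
Transport of invertibility and of base change maps along ring isomorphisms; the rigidity criterion.
Pure commutative algebra.
-/
import Fermat.Agent.S25.Mod.DictDefs
import Fermat.Agent.S25.Triple.BCModLemmas
import Fermat.Agent.S25.Triple.BCModMathlib

set_option autoImplicit false

universe u

namespace Fermat.Agent.S25.Dict

open Fermat.Agent.S25.Mod

namespace AlgTransport

/-- A bijective additive map which is semilinear along a ring isomorphism is a base change map. -/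
theorem isBCMap_of_equiv {R S : Type u} [CommRing R] [CommRing S] (θ : R ≃+* S)
    {N N' : Type u} [AddCommGroup N] [Module R N] [AddCommGroup N'] [Module S N']
    (e : N ≃+ N') (he : ∀ (r : R) (n : N), e (r • n) = θ r • e n)
    (β : N →ₛₗ[(θ : R →+* S)] N') (hβ : ∀ n, β n = e n) : IsBCMap (θ : R →+* S) β := by
  intro Q _ _ g
  have hes : ∀ (s : S) (n' : N'), e.symm (s • n') = θ.symm s • e.symm n' := by
    intro s n'
    apply e.injective
    rw [he, e.apply_symm_apply, e.apply_symm_apply, θ.apply_symm_apply]
  let h : N' →ₗ[S] Q :=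
    { toFun := fun n' => g (e.symm n')
      map_add' := fun a b => by rw [map_add, map_add]
      map_smul' := fun s n' => by
        rw [hes, g.map_smulₛₗ]
        simp }
  refine ⟨h, fun n => ?_, fun h' hh' => ?_⟩
  · change g (e.symm (β n)) = g n
    rw [hβ, e.symm_apply_apply]
  · ext n'
    change h' n' = g (e.symm n')
    rw [← hh', hβ, e.apply_symm_apply]

/-- a base change map along a surjective ring homomorphism is surjective. -/
theorem surjective_of_isBCMap {R A : Type u} [CommRing R] [CommRing A] (ev : R →+* A)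
    (hev : Function.Surjective ev) {N P : Type u} [AddCommGroup N] [Module R N] [AddCommGroup P]
    [Module A P] (β : N →ₛₗ[ev] P) (hβ : IsBCMap ev β) : Function.Surjective β := by
  intro p
  refine hβ.induction_on (C := fun p => ∃ n, β n = p) p ⟨0, map_zero β⟩ ?_ ?_
  · intro a m
    obtain ⟨r, rfl⟩ := hev a
    exact ⟨r • m, β.map_smulₛₗ r m⟩
  · rintro _ _ ⟨a, rfl⟩ ⟨b, rfl⟩
    exact ⟨a + b, map_add β a b⟩

/-- the kernel of a base change map along a surjective ring homomorphism. -/
theorem apply_eq_zero_iff {R A : Type u} [CommRing R] [CommRing A] (ev : R →+* A)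
    (hev : Function.Surjective ev) {N P : Type u} [AddCommGroup N] [Module R N] [AddCommGroup P]
    [Module A P] (β : N →ₛₗ[ev] P) (hβ : IsBCMap ev β) (n : N) :
    β n = 0 ↔ n ∈ (RingHom.ker ev) • (⊤ : Submodule R N) := by
  constructor
  · intro hn
    let eq : (R ⧸ RingHom.ker ev) ≃+* A := RingHom.quotientKerEquivOfSurjective hev
    let _ : Module A (N ⧸ (RingHom.ker ev) • (⊤ : Submodule R N)) :=
      Module.compHom _ (eq.symm : A →+* R ⧸ RingHom.ker ev)
    let g : N →ₛₗ[ev] (N ⧸ (RingHom.ker ev) • (⊤ : Submodule R N)) :=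
      { toFun := fun m => Submodule.Quotient.mk m
        map_add' := fun a b => rfl
        map_smul' := fun r m => by
          change (Submodule.Quotient.mk (r • m) : N ⧸ (RingHom.ker ev) • (⊤ : Submodule R N)) =
            (eq.symm (ev r)) •
              (Submodule.Quotient.mk m : N ⧸ (RingHom.ker ev) • (⊤ : Submodule R N))
          have h1 : eq.symm (ev r) = Ideal.Quotient.mk _ r := by
            rw [RingEquiv.symm_apply_eq]
            rfl
          rw [h1]
          rfl }
    have h2 : hβ.lift g (β n) = g n := hβ.lift_apply g n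
    rw [hn, map_zero] at h2
    exact (Submodule.Quotient.mk_eq_zero _).mp h2.symm
  · intro hn
    refine Submodule.smul_induction_on hn ?_ ?_
    · intro r hr m _
      rw [β.map_smulₛₗ, (RingHom.mem_ker).mp hr, zero_smul]
    · intro a b ha hb
      rw [map_add, ha, hb, add_zero]

end AlgTransport

open AlgTransport

/-- transport of invertibility along a ring isomorphism -/
theorem invertible_of_ringEquiv {R S : Type u} [CommRing R] [CommRing S] (θ : R ≃+* S)
    {N N' : Type u} [AddCommGroup N] [Module R N] [AddCommGroup N'] [Module S N']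
    (e : N ≃+ N') (he : ∀ (r : R) (n : N), e (r • n) = θ r • e n)
    (h : Module.Invertible S N') : Module.Invertible R N := by
  have hes : ∀ (s : S) (n' : N'), e.symm (s • n') = θ.symm s • e.symm n' := by
    intro s n'
    apply e.injective
    rw [he, e.apply_symm_apply, e.apply_symm_apply, θ.apply_symm_apply]
  let β : N' →ₛₗ[(θ.symm : S →+* R)] N :=
    { toFun := e.symm
      map_add' := map_add e.symm
      map_smul' := hes }
  exact (isBCMap_of_equiv θ.symm e.symm hes β (fun _ => rfl)).invertible h

/-- transport of base change maps along ring isomorphisms -/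
theorem isBCMap_of_ringEquiv {R S R' S' : Type u} [CommRing R] [CommRing S] [CommRing R']
    [CommRing S'] (f : R →+* S) (f' : R' →+* S') (θ : R ≃+* R') (θ' : S ≃+* S')
    (hθ : ∀ r, θ' (f r) = f' (θ r))
    {M N M' N' : Type u} [AddCommGroup M] [Module R M] [AddCommGroup N] [Module S N]
    [AddCommGroup M'] [Module R' M'] [AddCommGroup N'] [Module S' N']
    (β : M →ₛₗ[f] N) (β' : M' →ₛₗ[f'] N') (e : M ≃+ M') (e' : N ≃+ N')
    (he : ∀ (r : R) (m : M), e (r • m) = θ r • e m)
    (he' : ∀ (s : S) (n : N), e' (s • n) = θ' s • e' n)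
    (hβ : ∀ m, e' (β m) = β' (e m)) (h : IsBCMap f' β') : IsBCMap f β := by
  intro Q _ _ g
  have hes : ∀ (r' : R') (m' : M'), e.symm (r' • m') = θ.symm r' • e.symm m' := by
    intro s n'
    apply e.injective
    rw [he, e.apply_symm_apply, e.apply_symm_apply, θ.apply_symm_apply]
  have hes' : ∀ (s' : S') (n' : N'), e'.symm (s' • n') = θ'.symm s' • e'.symm n' := by
    intro s n'
    apply e'.injective
    rw [he', e'.apply_symm_apply, e'.apply_symm_apply, θ'.apply_symm_apply]
  have hθs : ∀ r', f (θ.symm r') = θ'.symm (f' r') := by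
    intro r'
    rw [RingEquiv.eq_symm_apply, hθ, θ.apply_symm_apply]
  have hβs : ∀ m', e'.symm (β' m') = β (e.symm m') := by
    intro m'
    rw [AddEquiv.symm_apply_eq, hβ, e.apply_symm_apply]
  let inst : Module S' Q := Module.compHom Q (θ'.symm : S' →+* S)
  have hsm : ∀ (s' : S') (q : Q), s' • q = θ'.symm s' • q := fun _ _ => rfl
  let g' : M' →ₛₗ[f'] Q :=
    { toFun := fun m' => g (e.symm m')
      map_add' := fun a b => by rw [map_add, map_add]
      map_smul' := fun r' m' => by
        rw [hes, g.map_smulₛₗ, hθs, hsm] }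
  let k : N →ₗ[S] Q :=
    { toFun := fun n => h.lift g' (e' n)
      map_add' := fun a b => by rw [map_add, map_add]
      map_smul' := fun s n => by
        rw [he', map_smul, hsm, θ'.symm_apply_apply]
        rfl }
  refine ⟨k, fun m => ?_, fun k₂ hk₂ => ?_⟩
  · change h.lift g' (e' (β m)) = g m
    rw [hβ, h.lift_apply]
    change g (e.symm (e m)) = g m
    rw [e.symm_apply_apply]
  · let k₂' : N' →ₗ[S'] Q :=
      { toFun := fun n' => k₂ (e'.symm n')
        map_add' := fun a b => by rw [map_add, map_add]
        map_smul' := fun s' n' => by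
          rw [hes', map_smul, hsm]
          rfl }
    have hk : k₂' = h.lift g' := by
      refine h.hom_ext fun m' => ?_
      rw [h.lift_apply]
      change k₂ (e'.symm (β' m')) = g (e.symm m')
      rw [hβs, hk₂]
    ext n
    change k₂ n = h.lift g' (e' n)
    rw [← hk]
    change k₂ n = k₂ (e'.symm (e' n))
    rw [e'.symm_apply_apply]

/-- the rigidity criterion -/
theorem free_iff_rigid {R A : Type u} [CommRing R] [CommRing A] (ev : R →+* A)
    (hev : Function.Surjective ev) {N P : Type u} [AddCommGroup N] [Module R N] [AddCommGroup P]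
    [Module A P] [Module.Invertible R N] (β : N →ₛₗ[ev] P) (hβ : IsBCMap ev β) :
    Nonempty (P ≃ₗ[A] A) ↔
      ∃ n : N, ∀ m : N, ∃ r : R, m - r • n ∈ (RingHom.ker ev) • (⊤ : Submodule R N) := by
  have hsurj := surjective_of_isBCMap ev hev β hβ
  constructor
  · rintro ⟨φ⟩
    obtain ⟨n, hn⟩ := hsurj (φ.symm 1)
    refine ⟨n, fun m => ?_⟩
    obtain ⟨r, hr⟩ := hev (φ (β m))
    refine ⟨r, ?_⟩
    rw [← apply_eq_zero_iff ev hev β hβ, map_sub, β.map_smulₛₗ, hn, hr, ← map_smul, smul_eq_mul,
      mul_one, φ.symm_apply_apply, sub_self]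
  · rintro ⟨n, hn⟩
    have hP : Module.Invertible A P := hβ.invertible inferInstance
    let ψ : A →ₗ[A] P := LinearMap.toSpanSingleton A P (β n)
    have hψ : Function.Surjective ψ := by
      intro p
      obtain ⟨m, rfl⟩ := hsurj p
      obtain ⟨r, hr⟩ := hn m
      rw [← apply_eq_zero_iff ev hev β hβ, map_sub, β.map_smulₛₗ, sub_eq_zero] at hr
      exact ⟨ev r, by rw [hr]; rfl⟩
    exact ⟨(LinearEquiv.ofBijective ψ (Module.Invertible.bijective_of_surjective hψ)).symm⟩

end Fermat.Agent.S25.Dict
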