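/-
S25 / block D (Dictionary), section LOC: sections of a quasi-coherent sheaf over a basic open of an
affine open are the localisation of the sections over the affine open.   Owner: helper90.
-/
import Fermat.Agent.S25.Mod.DictDefs

set_option autoImplicit false

universe u

open CategoryTheory CategoryTheory.Limits AlgebraicGeometry TopologicalSpace

namespace Fermat.Agent.S25.Dict

open Fermat.Agent.S25.Mod

variable {X : Scheme.{u}}

namespace Loc

set_option backward.isDefEq.respectTransparency false in
/-- the restriction of `M` to `Spec Γ(X, U)` is quasi-coherent -/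
theorem isQuasicoherent_restrict_fromSpec {M : X.Modules} {U : X.Opens} (hM : QCOn M U)
    (hU : IsAffineOpen U) : (M.restrict hU.fromSpec).IsQuasicoherent := by
  have h1 : (M.restrict U.ι).IsQuasicoherent := hM
  have h2 : ((M.restrict U.ι).restrict hU.isoSpec.inv).IsQuasicoherent := inferInstance
  exact (SheafOfModules.isQuasicoherent (Spec Γ(X, U)).ringCatSheaf).prop_of_iso
    ((Scheme.Modules.restrictFunctorComp hU.isoSpec.inv U.ι).app M).symm h2

/-- the scalar action of `Γ(X, U)` on the sections of the restriction -/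
theorem smul_eq {M : X.Modules} {U : X.Opens} (hU : IsAffineOpen U) (V' : (Spec Γ(X, U)).Opens)
    (h : hU.fromSpec ''ᵁ V' ≤ U) (r : Γ(X, U)) (y : Γ(M.restrict hU.fromSpec, V')) :
    r • y = (show Γ(M.restrict hU.fromSpec, V') from
      (X.presheaf.map (homOfLE h).op r • (show Γ(M, hU.fromSpec ''ᵁ V') from y))) := by
  rw [Scheme.Modules.smul_Spec_def]
  have key : (hU.fromSpec.appIso V').inv ((Spec Γ(X, U)).presheaf.map V'.leTop.op
      ((Scheme.ΓSpecIso Γ(X, U)).inv r)) = X.presheaf.map (homOfLE h).op r := by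
    have h1 : (Scheme.ΓSpecIso Γ(X, U)).inv ≫ (Spec Γ(X, U)).presheaf.map V'.leTop.op ≫
        (hU.fromSpec.appIso V').inv = X.presheaf.map (homOfLE h).op := by
      rw [← Category.assoc, Iso.comp_inv_eq, Scheme.Hom.appIso_hom', Scheme.Hom.map_appLE,
        Scheme.Hom.appLE, hU.fromSpec_app_self, Category.assoc, ← Functor.map_comp]
      rfl
    exact congr($h1 r)
  rw [← key]
  rfl

/-- translation of `IsLocalizedModule` on `Spec Γ(X, U)` into the elementary form on `X` -/
theorem isLocAt_of_isLocalizedModule {M : X.Modules} {U : X.Opens} (hU : IsAffineOpen U)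
    (f : Γ(X, U)) (D : (Spec Γ(X, U)).Opens) (V : X.Opens) (eF : hU.fromSpec ''ᵁ D = V)
    (hVU : V ≤ U)
    (hloc : IsLocalizedModule (Submonoid.powers f)
      ((modulesSpecToSheaf.obj (M.restrict hU.fromSpec)).obj.map D.leTop.op).hom) :
    IsLocAt (rres X hVU) f (mres M hVU) := by
  have eT : hU.fromSpec ''ᵁ ⊤ = U := by simp
  have hF : hU.fromSpec ''ᵁ D ≤ U := eF.le.trans hVU
  have hinj : Function.Injective (M.presheaf.map (eqToHom eF).op) :=
    (ConcreteCategory.bijective_of_isIso _).injective
  have hring : ∀ r : Γ(X, U), X.presheaf.map (eqToHom eF).op (rres X hVU r) =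
      X.presheaf.map (homOfLE hF).op r := by
    intro r
    show X.presheaf.map (eqToHom eF).op (X.presheaf.map (homOfLE hVU).op r) = _
    rw [← CommRingCat.comp_apply, ← Functor.map_comp]
    rfl
  constructor
  · intro n
    let n' : Γ(M.restrict hU.fromSpec, D) := M.presheaf.map (eqToHom eF).op n
    obtain ⟨⟨x', ⟨_, m, rfl⟩⟩, hx⟩ := hloc.surj n'
    have hx' : (f ^ m) • n' = (M.restrict hU.fromSpec).presheaf.map D.leTop.op
        (show Γ(M.restrict hU.fromSpec, ⊤) from x') := hx
    rw [Loc.smul_eq hU _ hF] at hx'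
    refine ⟨m, M.presheaf.map (eqToHom eT.symm).op (show Γ(M, hU.fromSpec ''ᵁ ⊤) from x'), ?_⟩
    apply hinj
    rw [M.map_smul, map_pow, hring, ← map_pow]
    refine Eq.trans ?_ hx'.symm
    rw [mres_apply, ← ConcreteCategory.comp_apply, ← ConcreteCategory.comp_apply,
      ← Functor.map_comp, ← Functor.map_comp]
    rfl
  · intro n₁ hn
    have hinjT : Function.Injective (M.presheaf.map (eqToHom eT).op) :=
      (ConcreteCategory.bijective_of_isIso _).injective
    let x' : Γ(M.restrict hU.fromSpec, ⊤) := M.presheaf.map (eqToHom eT).op n₁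
    have h0 : (M.restrict hU.fromSpec).presheaf.map D.leTop.op x' = 0 := by
      have h1 : (M.restrict hU.fromSpec).presheaf.map D.leTop.op x' =
          M.presheaf.map (eqToHom eF).op (mres M hVU n₁) := by
        rw [mres_apply, ← ConcreteCategory.comp_apply, ← Functor.map_comp]
        show M.presheaf.map _ (M.presheaf.map (eqToHom eT).op n₁) = _
        rw [← ConcreteCategory.comp_apply, ← Functor.map_comp]
        rfl
      rw [h1, hn, map_zero]
      rfl
    obtain ⟨⟨_, m, rfl⟩, hc⟩ := hloc.exists_of_eq (x₁ := x') (x₂ := 0) (by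
      rw [map_zero]
      exact h0)
    have hc' : (f ^ m) • x' = 0 := by
      have h2 : (f ^ m) • x' = (f ^ m) • (0 : Γ(M.restrict hU.fromSpec, ⊤)) := hc
      rw [h2, smul_zero]
    rw [Loc.smul_eq hU _ eT.le] at hc'
    refine ⟨m, hinjT ?_⟩
    rw [M.map_smul, map_zero]
    exact hc'

end Loc

theorem QCOn.isLocAt {M : X.Modules} {U : X.Opens} (hM : QCOn M U) (hU : IsAffineOpen U)
    (f : Γ(X, U)) (V : X.Opens) (hV : V = X.basicOpen f) (hVU : V ≤ U) :
    IsLocAt (rres X hVU) f (mres M hVU) := by
  have := Loc.isQuasicoherent_restrict_fromSpec hM hU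
  exact Loc.isLocAt_of_isLocalizedModule hU f (PrimeSpectrum.basicOpen f) V
    ((hU.fromSpec_image_basicOpen f).trans hV.symm) hVU
    ((isIso_fromTildeΓ_iff_isLocalizing (M.restrict hU.fromSpec)).mp inferInstance f)

end Fermat.Agent.S25.Dict
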