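/-
S25 / block D (Dictionary), section QC: quasi-coherence on opens.   Owner: helper79.

* `QCOn.of_isQuasicoherent`, `QCOn.mono`, `QCOn.of_bijective` : basic permanence properties.
* `isQuasicoherent_of_cover` : quasi-coherence is local.
* `isQuasicoherent_of_isInvertible` : invertible sheaves are quasi-coherent.
-/
import Fermat.Agent.S25.Mod.DictDefs
import Fermat.Prelude.Def_AlgebraicGeometry_RelativePicardFunctor

set_option autoImplicit false

universe u

open CategoryTheory CategoryTheory.Limits AlgebraicGeometry TopologicalSpace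

namespace Fermat.Agent.S25.Dict

open Fermat.Agent.S25.Mod

variable {X : Scheme.{u}}

/-- quasi-coherence is invariant under isomorphism -/
theorem QC.isQuasicoherent_of_iso {Y : Scheme.{u}} {M N : Y.Modules} (e : M ≅ N)
    (h : M.IsQuasicoherent) : N.IsQuasicoherent :=
  (SheafOfModules.isQuasicoherent Y.ringCatSheaf).prop_of_iso e h

theorem QCOn.of_isQuasicoherent (M : X.Modules) [M.IsQuasicoherent] (U : X.Opens) : QCOn M U :=
  Scheme.Modules.isQuasicoherent_restrictFunctor U.ι M

theorem QCOn.mono {M : X.Modules} {U V : X.Opens} (h : QCOn M U) (hVU : V ≤ U) : QCOn M V := by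
  have h' : (M.restrict U.ι).IsQuasicoherent := h
  have h2 : ((M.restrict U.ι).restrict (X.homOfLE hVU)).IsQuasicoherent := inferInstance
  let e : (M.restrict U.ι).restrict (X.homOfLE hVU) ≅ M.restrict V.ι :=
    ((Scheme.Modules.restrictFunctorComp (X.homOfLE hVU) U.ι).app M).symm ≪≫
      (Scheme.Modules.restrictFunctorCongr (X.homOfLE_ι hVU)).app M
  exact QC.isQuasicoherent_of_iso e h2

set_option backward.isDefEq.respectTransparency false in
/-- transfer of quasi-coherence from `M.restrict U.ι` (a module on the scheme `U`) to `M.over U`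
(a module on the slice site). -/
theorem QC.isQuasicoherent_over_of_restrict (M : X.Modules) (U : X.Opens) (h : QCOn M U) :
    (M.over U).IsQuasicoherent := by
  have h' : (M.restrict U.ι).IsQuasicoherent := h
  let e : M.over U ≅ (Scheme.Modules.overEquiv U).inverse.obj (M.restrict U.ι) :=
    (Scheme.Modules.overEquiv U).unitIso.app _ ≪≫
      (Scheme.Modules.overEquiv U).inverse.mapIso ((Scheme.Modules.overFunctorEquiv U).app M)
  have h2 :
      ((Scheme.Modules.overEquiv U).inverse.obj (M.restrict U.ι)).IsQuasicoherent := by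
    have : Functor.PreservesOneHypercovers.{u} (U.overEquivalence.symm.inverse)
        ((Opens.grothendieckTopology X).over U) (Opens.grothendieckTopology {x // x ∈ U}) :=
      Functor.PreservesOneHypercovers.of_coverPreserving
        (Functor.IsDenseSubsite.coverPreserving _ _ _)
    refine SheafOfModules.isQuasicoherent_pushforward_of_isLeftAdjoint.{u}
      (U.overEquivalence.symm.inverse) _ (Opens.sheafOfModulesEquivOverInverseUnit U X.ringCatSheaf)
  exact (SheafOfModules.isQuasicoherent (X.ringCatSheaf.over U)).prop_of_iso e.symm h2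

/-- quasi-coherence is local -/
theorem isQuasicoherent_of_cover (M : X.Modules) {ι : Type u} (U : ι → X.Opens)
    (hU : ⨆ i, U i = ⊤) (h : ∀ i, QCOn M (U i)) : M.IsQuasicoherent := by
  have : ∀ i, (M.over (U i)).IsQuasicoherent := fun i =>
    QC.isQuasicoherent_over_of_restrict M (U i) (h i)
  exact SheafOfModules.IsQuasicoherent.of_coversTop M U ((Opens.coversTop_iff _ U).mpr hU)

theorem QCOn.of_bijective {M M' : X.Modules} (φ : M ⟶ M') {U : X.Opens}
    (h : ∀ V ≤ U, Function.Bijective (φ.app V)) (hM' : QCOn M' U) : QCOn M U := by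
  have : IsIso ((Scheme.Modules.restrictFunctor U.ι).map φ) := by
    rw [Scheme.Modules.Hom.isIso_iff_isIso_app]
    intro W
    have hb : Function.Bijective (φ.app (U.ι ''ᵁ W)) := h _ (by
      simpa using U.ι.image_le_opensRange W)
    change IsIso (φ.app (U.ι ''ᵁ W))
    exact (ConcreteCategory.isIso_iff_bijective _).mpr hb
  exact QC.isQuasicoherent_of_iso (asIso ((Scheme.Modules.restrictFunctor U.ι).map φ)).symm hM'

/-- the structure sheaf is quasi-coherent -/
theorem QC.isQuasicoherent_unit (Y : Scheme.{u}) :
    (SheafOfModules.unit Y.ringCatSheaf).IsQuasicoherent := by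
  have h : (SheafOfModules.free (R := Y.ringCatSheaf) PUnit.{u+1}).IsQuasicoherent := inferInstance
  exact (SheafOfModules.isQuasicoherent Y.ringCatSheaf).prop_of_iso
    (Limits.coproductUniqueIso (fun _ : PUnit.{u+1} => SheafOfModules.unit Y.ringCatSheaf)) h

theorem isQuasicoherent_of_isInvertible (L : X.Modules) (h : Scheme.Modules.IsInvertible L) :
    L.IsQuasicoherent := by
  choose U hxU hU using h.exists_trivialization
  refine isQuasicoherent_of_cover L U ?_ fun x => ?_
  · rw [eq_top_iff]
    intro x _
    exact Opens.mem_iSup.mpr ⟨x, hxU x⟩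
  · obtain ⟨e⟩ := hU x
    exact QC.isQuasicoherent_of_iso
      ((Scheme.Modules.restrictFunctorIsoPullback (U x).ι).app L ≪≫ e).symm
      (QC.isQuasicoherent_unit _)

end Fermat.Agent.S25.Dict
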