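/-
S25 / block D (Dictionary), section INV: invertible sheaves have invertible section modules on
affine opens, and conversely.   Owner: helper272 (finalised by helper249).
-/
import Fermat.Agent.S25.Dict.QC
import Fermat.Agent.S25.Dict.Loc
import Fermat.Agent.S25.Mod.Triv
import Fermat.Agent.S25.Mod.AlgInv

set_option autoImplicit false

universe u

open CategoryTheory CategoryTheory.Limits AlgebraicGeometry TopologicalSpace

namespace Fermat.Agent.S25.Dict

open Fermat.Agent.S25.Mod

variable {X : Scheme.{u}}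

namespace InvSec

/-- The restriction to a basic open is a localization away from `f`, for the algebra structure
given by `rres`. -/
theorem isLocalization_rres {U : X.Opens} (hU : IsAffineOpen U) (f : Γ(X, U)) :
    @IsLocalization.Away Γ(X, U) _ f Γ(X, X.basicOpen f) _
      (rres X (X.basicOpen_le f)).toAlgebra :=
  hU.isLocalization_basicOpen f

/-- A point of an affine open lies in `D(f)` iff `f` is not in its prime ideal. -/
theorem mem_basicOpen_iff {U : X.Opens} (hU : IsAffineOpen U) (x : U) (f : Γ(X, U)) :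
    x.1 ∈ X.basicOpen f ↔ f ∉ (hU.primeIdealOf x).asIdeal := by
  have h1 : (hU.primeIdealOf x) ∈ hU.fromSpec ⁻¹ᵁ X.basicOpen f ↔ x.1 ∈ X.basicOpen f := by
    rw [← hU.fromSpec_primeIdealOf x]
    exact Iff.rfl
  rw [← h1, hU.fromSpec_preimage_basicOpen]
  exact Iff.rfl

/-- Local triviality at the points of an affine open with invertible module of sections. -/
theorem exists_trivialization (M : X.Modules) [M.IsQuasicoherent] {U : X.Opens}
    (hU : IsAffineOpen U) (i : Module.Invertible Γ(X, U) Γ(M, U)) (x : X) (hx : x ∈ U) :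
    ∃ W : X.Opens, x ∈ W ∧
      Nonempty ((Scheme.Modules.pullback W.ι).obj M ≅
        SheafOfModules.unit W.toScheme.ringCatSheaf) := by
  obtain ⟨f, hf, H⟩ := exists_free_of_invertible (R := Γ(X, U)) (N := Γ(M, U))
    (hU.primeIdealOf ⟨x, hx⟩).asIdeal
  refine ⟨X.basicOpen f, (mem_basicOpen_iff hU ⟨x, hx⟩ f).mpr hf, ?_⟩
  obtain ⟨e⟩ := H Γ(X, X.basicOpen f) (rres X (X.basicOpen_le f)) (isLocalization_rres hU f)
    Γ(M, X.basicOpen f) (mres M (X.basicOpen_le f))
    (QCOn.isLocAt (QCOn.of_isQuasicoherent M U) hU f _ rfl _)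
  exact trivial_of_sections_equiv M (hU.basicOpen f) (QCOn.of_isQuasicoherent M _) e

end InvSec

theorem invertible_sections (L : X.Modules) (hL : Scheme.Modules.IsInvertible L) {U : X.Opens}
    (hU : IsAffineOpen U) : Module.Invertible Γ(X, U) Γ(L, U) := by
  have : L.IsQuasicoherent := isQuasicoherent_of_isInvertible L hL
  let s : Set Γ(X, U) := {f | ∃ W : X.Opens, X.basicOpen f ≤ W ∧
    Nonempty ((Scheme.Modules.pullback W.ι).obj L ≅ SheafOfModules.unit W.toScheme.ringCatSheaf)}
  have hs : Ideal.span s = ⊤ := by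
    rw [← hU.self_le_iSup_basicOpen_iff]
    intro x hx
    obtain ⟨W, hxW, hW⟩ := hL.1 x
    obtain ⟨f, hfW, hxf⟩ := hU.exists_basicOpen_le (V := W) ⟨x, hxW⟩ hx
    exact Opens.mem_iSup.mpr ⟨⟨f, W, hfW, hW⟩, hxf⟩
  refine invertible_of_locally_free s hs (fun f => Γ(X, X.basicOpen f.1))
    (fun f => rres X (X.basicOpen_le f.1)) (fun f => InvSec.isLocalization_rres hU f.1)
    (fun f => Γ(L, X.basicOpen f.1)) (fun f => mres L (X.basicOpen_le f.1))
    (fun f => QCOn.isLocAt (QCOn.of_isQuasicoherent L U) hU f.1 _ rfl _) ?_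
  rintro ⟨f, W, hfW, ⟨e⟩⟩
  exact sections_equiv_of_trivial L W (X.basicOpen f) hfW e

theorem isInvertible_of_sections (M : X.Modules) [M.IsQuasicoherent] (U₁ U₂ : X.Opens)
    (h₁ : IsAffineOpen U₁) (h₂ : IsAffineOpen U₂) (hcov : U₁ ⊔ U₂ = ⊤)
    (i₁ : Module.Invertible Γ(X, U₁) Γ(M, U₁)) (i₂ : Module.Invertible Γ(X, U₂) Γ(M, U₂)) :
    Scheme.Modules.IsInvertible M := by
  refine ⟨fun x => ?_⟩
  have hx : x ∈ U₁ ⊔ U₂ := by rw [hcov]; trivial
  rcases hx with hx | hx
  · exact InvSec.exists_trivialization M h₁ i₁ x hx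
  · exact InvSec.exists_trivialization M h₂ i₂ x hx

end Fermat.Agent.S25.Dict
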