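/-
S25 / block D (Dictionary), section HOM: the key lemma
`Hom(M, G) = Hom_R(Γ(M, U), Γ(G, U))` for `M` quasi-coherent on the affine `U` and `G` extended
from `U`.
Owner: helper270.  Statement verbatim from `WIP/DictSkeleton.lean`.
-/
import Fermat.Agent.S25.Mod.DictDefs

set_option autoImplicit false

universe u

open CategoryTheory CategoryTheory.Limits AlgebraicGeometry TopologicalSpace

namespace Fermat.Agent.S25.Dict

open Fermat.Agent.S25.Mod

variable {X : Scheme.{u}}

namespace HomExt

universe v₁ v₂ u₁ u₂

/-- For an adjunction `L ⊣ R`, the left adjoint is bijective on `Hom(A, B)` as soon as the unit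
at `B` is an isomorphism. -/
lemma bijective_map_left {C : Type u₁} {D : Type u₂} [Category.{v₁} C] [Category.{v₂} D]
    {L : C ⥤ D} {R : D ⥤ C} (adj : L ⊣ R) (A B : C) [IsIso (adj.unit.app B)] :
    Function.Bijective (L.map : (A ⟶ B) → (L.obj A ⟶ L.obj B)) := by
  have h : ∀ c : A ⟶ B, (adj.homEquiv A (L.obj B)).symm (c ≫ adj.unit.app B) = L.map c := by
    intro c
    simp [Adjunction.homEquiv_counit]
  have h2 : Function.Bijective (fun c : A ⟶ B => c ≫ adj.unit.app B) := by
    constructor
    · intro a b hab
      exact (cancel_mono _).1 hab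
    · intro d
      exact ⟨d ≫ inv (adj.unit.app B), by simp⟩
  have h3 := (adj.homEquiv A (L.obj B)).symm.bijective.comp h2
  convert h3 using 1
  funext c
  exact (h c).symm

/-- For an adjunction `L ⊣ R`, the right adjoint is bijective on `Hom(P, Q)` as soon as the counit
at `P` is an isomorphism. -/
lemma bijective_map_right {C : Type u₁} {D : Type u₂} [Category.{v₁} C] [Category.{v₂} D]
    {L : C ⥤ D} {R : D ⥤ C} (adj : L ⊣ R) (P Q : D) [IsIso (adj.counit.app P)] :
    Function.Bijective (R.map : (P ⟶ Q) → (R.obj P ⟶ R.obj Q)) := by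
  have h : ∀ c : P ⟶ Q, (adj.homEquiv (R.obj P) Q) (adj.counit.app P ≫ c) = R.map c := by
    intro c
    simp [Adjunction.homEquiv_unit]
  have h2 : Function.Bijective (fun c : P ⟶ Q => adj.counit.app P ≫ c) := by
    constructor
    · intro a b hab
      exact (cancel_epi _).1 hab
    · intro d
      exact ⟨inv (adj.counit.app P) ≫ d, by simp⟩
  have h3 := (adj.homEquiv (R.obj P) Q).bijective.comp h2
  convert h3 using 1
  funext c
  exact (h c).symm

lemma image_top_fromSpec {U : X.Opens} (hU : IsAffineOpen U) : hU.fromSpec ''ᵁ ⊤ = U := by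
  rw [Scheme.Hom.image_top_eq_opensRange, hU.opensRange_fromSpec]

lemma ring_compat_hom {U : X.Opens} (hU : IsAffineOpen U) :
    (Scheme.ΓSpecIso Γ(X, U)).inv ≫
      (Spec Γ(X, U)).presheaf.map (⊤ : (Spec Γ(X, U)).Opens).leTop.op ≫
        (hU.fromSpec.appIso ⊤).inv =
    X.presheaf.map (eqToHom (image_top_fromSpec hU)).op := by
  rw [← Category.assoc, Iso.comp_inv_eq, Scheme.Hom.appIso_hom', Scheme.Hom.map_appLE,
    Scheme.Hom.appLE, hU.fromSpec_app_self, Category.assoc, ← Functor.map_comp]
  rfl

/-- The ring-level compatibility between the two descriptions of the scalars. -/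
lemma ring_compat {U : X.Opens} (hU : IsAffineOpen U) (r : Γ(X, U)) :
    (hU.fromSpec.appIso ⊤).inv ((Spec Γ(X, U)).presheaf.map (⊤ : (Spec Γ(X, U)).Opens).leTop.op
      ((Scheme.ΓSpecIso Γ(X, U)).inv r)) =
    X.presheaf.map (eqToHom (image_top_fromSpec hU)).op r :=
  congr($(ring_compat_hom hU) r)

/-- The identification `Γ(N, U) = Γ(N|_{Spec Γ(X, U)}, ⊤)` is linear over `Γ(X, U)`. -/
lemma map_smul_fromSpec (N : X.Modules) {U : X.Opens} (hU : IsAffineOpen U) (r : Γ(X, U))
    (s : Γ(N, U)) :
    (show Γ(N.restrict hU.fromSpec, ⊤) from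
      N.presheaf.map (eqToHom (image_top_fromSpec hU)).op (r • s)) =
    r • (show Γ(N.restrict hU.fromSpec, ⊤) from
      N.presheaf.map (eqToHom (image_top_fromSpec hU)).op s) := by
  rw [Scheme.Modules.smul_Spec_def]
  change _ = (hU.fromSpec.appIso ⊤).inv _ • N.presheaf.map (eqToHom (image_top_fromSpec hU)).op s
  rw [ring_compat, Scheme.Modules.map_smul]

lemma isQuasicoherent_restrict_fromSpec (M : X.Modules) {U : X.Opens} (hU : IsAffineOpen U)
    (hM : QCOn M U) : (M.restrict hU.fromSpec).IsQuasicoherent := by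
  have : (M.restrict U.ι).IsQuasicoherent := hM
  have hq : ((M.restrict U.ι).restrict hU.isoSpec.inv).IsQuasicoherent := inferInstance
  have e : M.restrict hU.fromSpec ≅ (M.restrict U.ι).restrict hU.isoSpec.inv :=
    (Scheme.Modules.restrictFunctorComp hU.isoSpec.inv U.ι).app M
  exact (SheafOfModules.isQuasicoherent (Spec Γ(X, U)).ringCatSheaf).prop_of_iso
    (X := (M.restrict U.ι).restrict hU.isoSpec.inv) e.symm hq

/-- Restriction along an equality of opens is bijective. -/
lemma bijective_map_of_eq' (G : X.Modules) {A B : X.Opens} (h : A ≤ B) (e : A = B) :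
    Function.Bijective (G.presheaf.map (homOfLE h).op) := by
  subst e
  have : (homOfLE h).op = 𝟙 _ := Subsingleton.elim _ _
  rw [this, G.presheaf.map_id]
  exact Function.bijective_id

/-- If `G` is extended from the range of the open immersion `ι`, the unit `G ⟶ ι_* ι^* G` is an
isomorphism. -/
lemma isIso_unit_of_extFrom (G : X.Modules) {U : X.Opens} {Y : Scheme.{u}} (ι : Y ⟶ X)
    [IsOpenImmersion ι] (hι : ι.opensRange = U) (hG : ExtFrom G U) :
    IsIso ((Scheme.Modules.restrictAdjunction ι).unit.app G) := by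
  rw [Scheme.Modules.Hom.isIso_iff_isIso_app]
  intro V
  rw [Scheme.Modules.restrictAdjunction_unit_app_app]
  change IsIso (G.presheaf.map (homOfLE (ι.image_preimage_le V)).op)
  rw [ConcreteCategory.isIso_iff_bijective]
  have e : ι ''ᵁ ι ⁻¹ᵁ V = V ⊓ U := by
    rw [Scheme.Hom.image_preimage_eq_opensRange_inf, hι, inf_comm]
  have h1 := hG V
  have h2 := bijective_map_of_eq' G e.le e
  have h3 := h2.comp h1
  convert h3 using 1
  funext s
  change _ = G.presheaf.map (homOfLE e.le).op (G.presheaf.map (homOfLE inf_le_left).op s)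
  rw [← ConcreteCategory.comp_apply, ← G.presheaf.map_comp]
  rfl

/-- On `Spec R`, morphisms out of a quasi-coherent module are the same as linear maps between
global sections. -/
lemma bijective_Γ_map {R : CommRingCat.{u}} (P Q : (Spec R).Modules) [P.IsQuasicoherent] :
    Function.Bijective (moduleSpecΓFunctor.map :
      (P ⟶ Q) → (moduleSpecΓFunctor.obj P ⟶ moduleSpecΓFunctor.obj Q)) := by
  have : IsIso (tilde.adjunction.counit.app P) := by
    change IsIso P.fromTildeΓ
    infer_instance
  exact bijective_map_right tilde.adjunction P Q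

lemma app_naturality {M G : X.Modules} (c : M ⟶ G) {A B : X.Opens} (i : A ⟶ B) (s : Γ(M, B)) :
    c.app A (M.presheaf.map i.op s) = G.presheaf.map i.op (c.app B s) :=
  congr($(c.mapPresheaf.naturality i.op) s)

lemma map_eqToHom_map_eqToHom (N : X.Modules) {A B : X.Opens} (e : A = B) (s : Γ(N, A)) :
    N.presheaf.map (eqToHom e).op (N.presheaf.map (eqToHom e.symm).op s) = s := by
  subst e
  simp

end HomExt

open HomExt

theorem existsUnique_hom (M G : X.Modules) {U : X.Opens} (hU : IsAffineOpen U) (hM : QCOn M U)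
    (hG : ExtFrom G U) (g : Γ(M, U) →ₗ[Γ(X, U)] Γ(G, U)) :
    ∃! c : M ⟶ G, ∀ s, c.app U s = g s := by
  have e : hU.fromSpec ''ᵁ ⊤ = U := image_top_fromSpec hU
  have : (M.restrict hU.fromSpec).IsQuasicoherent := isQuasicoherent_restrict_fromSpec M hU hM
  have : IsIso ((Scheme.Modules.restrictAdjunction hU.fromSpec).unit.app G) :=
    isIso_unit_of_extFrom G hU.fromSpec hU.opensRange_fromSpec hG
  have b1 := bijective_map_left (Scheme.Modules.restrictAdjunction hU.fromSpec) M G
  have b2 := bijective_Γ_map (M.restrict hU.fromSpec) (G.restrict hU.fromSpec)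
  have b := b2.comp b1
  -- the linear map on global sections over `Spec Γ(X, U)` corresponding to `g`
  let g' : moduleSpecΓFunctor.obj (M.restrict hU.fromSpec) ⟶
      moduleSpecΓFunctor.obj (G.restrict hU.fromSpec) :=
    ModuleCat.ofHom (X := Γ(M.restrict hU.fromSpec, ⊤)) (Y := Γ(G.restrict hU.fromSpec, ⊤))
      { toFun := fun x => G.presheaf.map (eqToHom e).op (g (M.presheaf.map (eqToHom e.symm).op x))
        map_add' := fun x y => by
          have h1 : M.presheaf.map (eqToHom e.symm).op (x + y) =
              M.presheaf.map (eqToHom e.symm).op x + M.presheaf.map (eqToHom e.symm).op y :=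
            map_add _ _ _
          rw [h1, map_add]
          exact map_add _ _ _
        map_smul' := fun r x => by
          have hx : x = M.presheaf.map (eqToHom e).op (M.presheaf.map (eqToHom e.symm).op x) :=
            (map_eqToHom_map_eqToHom M e x).symm
          have h1 : r • x =
              M.presheaf.map (eqToHom e).op (r • M.presheaf.map (eqToHom e.symm).op x) := by
            refine Eq.trans ?_ (map_smul_fromSpec M hU r _).symm
            exact congrArg (fun z : Γ(M.restrict hU.fromSpec, ⊤) => r • z) hx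
          have h2 : M.presheaf.map (eqToHom e.symm).op (r • x) =
              r • M.presheaf.map (eqToHom e.symm).op x := by
            rw [h1]
            exact map_eqToHom_map_eqToHom M e.symm _
          refine (congrArg (fun z => G.presheaf.map (eqToHom e).op (g z)) h2).trans ?_
          refine (congrArg (fun z => G.presheaf.map (eqToHom e).op z) (map_smul g r _)).trans ?_
          exact map_smul_fromSpec G hU r _ }
  have hg' : ∀ x : Γ(M, hU.fromSpec ''ᵁ ⊤), g'.hom x =
      G.presheaf.map (eqToHom e).op (g (M.presheaf.map (eqToHom e.symm).op x)) := fun _ => rfl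
  have hΦ : ∀ (c : M ⟶ G) (x : Γ(M, hU.fromSpec ''ᵁ ⊤)),
      (moduleSpecΓFunctor.map ((Scheme.Modules.restrictFunctor hU.fromSpec).map c)).hom x =
        c.app (hU.fromSpec ''ᵁ ⊤) x := fun _ _ => rfl
  have key : ∀ c : M ⟶ G,
      moduleSpecΓFunctor.map ((Scheme.Modules.restrictFunctor hU.fromSpec).map c) = g' ↔
        ∀ s, c.app U s = g s := by
    intro c
    constructor
    · intro h s
      have h1 := hΦ c (M.presheaf.map (eqToHom e).op s)
      rw [h, hg', app_naturality] at h1
      have h2 : M.presheaf.map (eqToHom e.symm).op (M.presheaf.map (eqToHom e).op s) = s :=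
        map_eqToHom_map_eqToHom M e.symm s
      rw [h2] at h1
      have h3 := congrArg (G.presheaf.map (eqToHom e.symm).op) h1
      have h4 : ∀ t : Γ(G, U), G.presheaf.map (eqToHom e.symm).op
          (G.presheaf.map (eqToHom e).op t) = t := map_eqToHom_map_eqToHom G e.symm
      rw [h4, h4] at h3
      exact h3.symm
    · intro h
      apply ModuleCat.hom_ext
      apply LinearMap.ext
      intro x
      refine (hΦ c x).trans (Eq.trans ?_ (hg' x).symm)
      rw [← h, ← app_naturality, map_eqToHom_map_eqToHom M e x]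
  obtain ⟨c, hc⟩ := b.2 g'
  refine ⟨c, (key c).1 hc, fun c' hc' => b.1 ?_⟩
  exact ((key c').2 hc').trans hc.symm

end Fermat.Agent.S25.Dict
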