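/-
S25 / block D (Dictionary), section PB: sections of a pullback over affine opens are a base change.
Owner: helper249.
-/
import Fermat.Agent.S25.Dict.HomExt
import Fermat.Agent.S25.Mod.ExtSheaf

set_option autoImplicit false

universe u

open CategoryTheory CategoryTheory.Limits AlgebraicGeometry TopologicalSpace

namespace Fermat.Agent.S25.Dict

open Fermat.Agent.S25.Mod

variable {X : Scheme.{u}}

namespace PullbackSections

lemma app_mres {M M' : X.Modules} (φ : M ⟶ M') {U V : X.Opens} (h : V ≤ U)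
    (s : Γ(M, U)) : φ.app V (mres M h s) = mres M' h (φ.app U s) :=
  congr($(φ.mapPresheaf.naturality (homOfLE h).op) s)

lemma mres_mres (M : X.Modules) {U V W : X.Opens} (h : V ≤ U) (h' : W ≤ V) (s : Γ(M, U)) :
    mres M h' (mres M h s) = mres M (h'.trans h) s := by
  simp only [mres_apply]
  rw [← ConcreteCategory.comp_apply, ← Functor.map_comp]
  rfl

lemma bijective_mres_of_eq (M : X.Modules) {U V : X.Opens} (h : V ≤ U) (e : V = U) :
    Function.Bijective (mres M h) := by
  subst e
  have : (mres M h : Γ(M, V) → Γ(M, V)) = id := by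
    funext s
    simp only [mres_apply]
    exact congr($(M.presheaf.map_id _) s)
  rw [this]
  exact Function.bijective_id

/-- Sections of a sheaf extended from `U` only depend on the intersection with `U`. -/
lemma bijective_mres_of_extFrom {G : X.Modules} {U : X.Opens} (hG : ExtFrom G U) {V W : X.Opens}
    (hWV : W ≤ V) (h : V ⊓ U ≤ W) : Function.Bijective (mres G hWV) := by
  have hV : Function.Bijective (mres G (inf_le_left : V ⊓ U ≤ V)) := hG V
  have hW : Function.Bijective (mres G (inf_le_left : W ⊓ U ≤ W)) := hG W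
  have hZ : V ⊓ U ≤ W ⊓ U := le_inf h inf_le_right
  have hZ' : Function.Bijective (mres G hZ) :=
    bijective_mres_of_eq G hZ (le_antisymm hZ (inf_le_inf_right U hWV))
  have hWZ : Function.Bijective (mres G h) := by
    have : (mres G h : Γ(G, W) → Γ(G, V ⊓ U)) = mres G hZ ∘ mres G inf_le_left := by
      funext s; exact (mres_mres G _ _ s).symm
    rw [this]; exact hZ'.comp hW
  have hcomp : (mres G (inf_le_left : V ⊓ U ≤ V) : Γ(G, V) → Γ(G, V ⊓ U)) =
      mres G h ∘ mres G hWV := by
    funext s; exact (mres_mres G _ _ s).symm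
  rw [hcomp] at hV
  exact (Function.Bijective.of_comp_iff' hWZ _).mp hV

variable {X' : Scheme.{u}} (f : X' ⟶ X)

/-- Sections of a pushforward. -/
noncomputable def pfSec (G : X'.Modules) (U : X.Opens) :
    Γ((Scheme.Modules.pushforward f).obj G, U) ≃+ Γ(G, f ⁻¹ᵁ U) := AddEquiv.refl _

lemma pfSec_smul (G : X'.Modules) (U : X.Opens) (r : Γ(X, U))
    (s : Γ((Scheme.Modules.pushforward f).obj G, U)) :
    pfSec f G U (r • s) = f.app U r • pfSec f G U s := rfl

lemma pfSec_mres (G : X'.Modules) {U V : X.Opens} (h : V ≤ U)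
    (s : Γ((Scheme.Modules.pushforward f).obj G, U)) :
    pfSec f G V (mres _ h s) =
      mres G (show f ⁻¹ᵁ V ≤ f ⁻¹ᵁ U from fun _ hx => h hx) (pfSec f G U s) := rfl

lemma pfSec_map {G G' : X'.Modules} (c : G ⟶ G') (U : X.Opens)
    (s : Γ((Scheme.Modules.pushforward f).obj G, U)) :
    pfSec f G' U (((Scheme.Modules.pushforward f).map c).app U s) =
      c.app (f ⁻¹ᵁ U) (pfSec f G U s) := rfl

lemma pbMap_eq (M : X.Modules) (U : X.Opens) (U' : X'.Opens) (h : U' ≤ f ⁻¹ᵁ U) (s : Γ(M, U)) :
    pbMap f M U U' h s = mres _ h (pfSec f _ U ((pbUnit f M).app U s)) := rfl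

/-- The transpose of a morphism `f^* M ⟶ G`. -/
noncomputable def tr (M : X.Modules) (G : X'.Modules) (c : (Scheme.Modules.pullback f).obj M ⟶ G) :
    M ⟶ (Scheme.Modules.pushforward f).obj G :=
  pbUnit f M ≫ (Scheme.Modules.pushforward f).map c

lemma tr_eq (M : X.Modules) (G : X'.Modules) (c : (Scheme.Modules.pullback f).obj M ⟶ G) :
    tr f M G c = (Scheme.Modules.pullbackPushforwardAdjunction f).homEquiv M G c :=
  ((Scheme.Modules.pullbackPushforwardAdjunction f).homEquiv_unit M G c).symm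

lemma tr_injective (M : X.Modules) (G : X'.Modules) : Function.Injective (tr f M G) := by
  intro c c' h
  rw [tr_eq, tr_eq] at h
  exact ((Scheme.Modules.pullbackPushforwardAdjunction f).homEquiv M G).injective h

lemma tr_surjective (M : X.Modules) (G : X'.Modules) : Function.Surjective (tr f M G) := by
  intro c
  refine ⟨((Scheme.Modules.pullbackPushforwardAdjunction f).homEquiv M G).symm c, ?_⟩
  rw [tr_eq, Equiv.apply_symm_apply]

/-- The key compatibility: restricting the transpose computes `c ∘ pbMap`. -/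
lemma mres_tr (M : X.Modules) (G : X'.Modules) (c : (Scheme.Modules.pullback f).obj M ⟶ G)
    (U : X.Opens) (U' : X'.Opens) (h : U' ≤ f ⁻¹ᵁ U) (s : Γ(M, U)) :
    mres G h (pfSec f G U ((tr f M G c).app U s)) = c.app U' (pbMap f M U U' h s) := by
  rw [pbMap_eq, app_mres]
  rfl

end PullbackSections

open PullbackSections

theorem mres_pbMap {X' : Scheme.{u}} (f : X' ⟶ X) (M : X.Modules) {U V : X.Opens}
    {U' V' : X'.Opens} (h : U' ≤ f ⁻¹ᵁ U) (h' : V' ≤ f ⁻¹ᵁ V) (hVU : V ≤ U) (hVU' : V' ≤ U')
    (s : Γ(M, U)) :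
    mres _ hVU' (pbMap f M U U' h s) = pbMap f M V V' h' (mres M hVU s) := by
  rw [pbMap_eq, pbMap_eq, app_mres, pfSec_mres, mres_mres, mres_mres]

theorem isBCMap_pbMap {X' : Scheme.{u}} (f : X' ⟶ X) (M : X.Modules) {U : X.Opens}
    {U' : X'.Opens} (h : U' ≤ f ⁻¹ᵁ U) (hU : IsAffineOpen U) (hU' : IsAffineOpen U')
    (hM : QCOn M U) (hM' : QCOn ((Scheme.Modules.pullback f).obj M) U') :
    IsBCMap (f.appLE U U' h).hom (pbMap f M U U' h) := by
  intro Q _ _ g
  obtain ⟨G', ext', -, ⟨ε⟩⟩ := exists_extFrom hU' Q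
  have extG : ExtFrom ((Scheme.Modules.pushforward f).obj G') U :=
    extFrom_pushforward f G' U' U h ext'
  -- the restriction `Γ(f_* G', U) = Γ(G', f⁻¹ U) → Γ(G', U')`
  have hr : Function.Bijective (mres G' h) := bijective_mres_of_extFrom ext' h inf_le_right
  let r : Γ((Scheme.Modules.pushforward f).obj G', U) ≃+ Γ(G', U') :=
    (pfSec f G' U).trans (AddEquiv.ofBijective (mres G' h).toAddMonoidHom hr)
  have hr_apply : ∀ t, r t = mres G' h (pfSec f G' U t) := fun _ => rfl
  have hr_smul : ∀ (a : Γ(X, U)) t, r (a • t) = (f.appLE U U' h).hom a • r t := by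
    intro a t
    rw [hr_apply, pfSec_smul, (mres G' h).map_smulₛₗ]
    rfl
  -- a morphism `c' : f^* M ⟶ G'` acts on `U'`-sections by `k` iff its transpose acts by `r⁻¹ k pbMap`
  let g₀ : Γ(M, U) →ₗ[Γ(X, U)] Γ((Scheme.Modules.pushforward f).obj G', U) :=
    { toFun := fun s => r.symm (ε.symm (g s))
      map_add' := fun a b => by rw [map_add, map_add, map_add]
      map_smul' := fun a s => by
        apply r.injective
        rw [RingHom.id_apply, hr_smul, AddEquiv.apply_symm_apply, AddEquiv.apply_symm_apply,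
          g.map_smulₛₗ, map_smul] }
  obtain ⟨c, hc, hcu⟩ := existsUnique_hom M _ hU hM extG g₀
  obtain ⟨c', rfl⟩ := tr_surjective f M G' c
  refine ⟨ε.toLinearMap ∘ₗ appₗ c' U', fun s => ?_, fun k hk => ?_⟩
  · change ε (c'.app U' (pbMap f M U U' h s)) = g s
    rw [← mres_tr, ← hr_apply, hc]
    change ε (r (r.symm (ε.symm (g s)))) = g s
    rw [AddEquiv.apply_symm_apply, ε.apply_symm_apply]
  · obtain ⟨c₁, hc₁, -⟩ := existsUnique_hom _ G' hU' hM' ext' (ε.symm.toLinearMap ∘ₗ k)
    have h1 : tr f M G' c₁ = tr f M G' c' := by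
      apply hcu
      intro s
      apply r.injective
      rw [hr_apply, mres_tr, hc₁]
      change ε.symm (k (pbMap f M U U' h s)) = r (r.symm (ε.symm (g s)))
      rw [AddEquiv.apply_symm_apply, hk]
    have h2 : c₁ = c' := tr_injective f M G' h1
    ext t
    change k t = ε (c'.app U' t)
    rw [← h2, hc₁]
    change k t = ε (ε.symm (k t))
    rw [ε.apply_symm_apply]

end Fermat.Agent.S25.Dict
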