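/-
S25 / block D (Dictionary): transport between geometric triples `GTriple P.𝒰` (modules over
`Γ(X_A, Uᵢ)`) and algebraic triples `Triple G.𝔠 A` (modules over `A ⊗[k] Bᵢ`), along a `ProdChart`.
Owner: helper249.
-/
import Fermat.Agent.S25.ProductChartsDefs
import Fermat.Agent.S25.Triple.IsoLemmas

set_option autoImplicit false

universe u

open CategoryTheory CategoryTheory.Limits AlgebraicGeometry AlgebraicGeometry.RelPicard
  NeronModelInfra TopologicalSpace
open scoped TensorProduct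

namespace Fermat.Agent.S25.Dict

open Fermat.Agent.S25.Mod Fermat.Agent.S25.Geo

variable {k : Type u} [Field k] {C : Scheme.{u}} {c : C ⟶ Spec (CommRingCat.of k)}
  {ε : SchemeHomOver (𝟙 (Spec (CommRingCat.of k))) c}
  {G : GeomCharts c ε} {A : Type u} [CommRing A] [Algebra k A]

/-- A geometric triple, seen as an algebraic triple through the coordinate isomorphisms. -/
noncomputable def toTriple (P : ProdChart G A) (T : GTriple P.𝒰) : Triple G.𝔠 A where
  N₁ := T.N₁
  N₂ := T.N₂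
  N₁₂ := T.N₁₂
  mod₁ := Module.compHom T.N₁ P.θ₁.toRingHom
  mod₂ := Module.compHom T.N₂ P.θ₂.toRingHom
  mod₁₂ := Module.compHom T.N₁₂ P.θ₁₂.toRingHom
  ρ₁ :=
    letI := Module.compHom T.N₁ P.θ₁.toRingHom
    letI := Module.compHom T.N₁₂ P.θ₁₂.toRingHom
    { toFun := T.ρ₁
      map_add' := T.ρ₁.map_add
      map_smul' := fun r n => by
        change T.ρ₁ (P.θ₁ r • n) = P.θ₁₂ (G.𝔠.res₁ A r) • T.ρ₁ n
        rw [T.ρ₁.map_smulₛₗ, P.res₁] }
  ρ₂ :=
    letI := Module.compHom T.N₂ P.θ₂.toRingHom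
    letI := Module.compHom T.N₁₂ P.θ₁₂.toRingHom
    { toFun := T.ρ₂
      map_add' := T.ρ₂.map_add
      map_smul' := fun r n => by
        change T.ρ₂ (P.θ₂ r • n) = P.θ₁₂ (G.𝔠.res₂ A r) • T.ρ₂ n
        rw [T.ρ₂.map_smulₛₗ, P.res₂] }

/-- An algebraic triple, seen as a geometric triple. -/
noncomputable def ofTriple (P : ProdChart G A) (T : Triple G.𝔠 A) : GTriple P.𝒰 where
  N₁ := T.N₁
  N₂ := T.N₂
  N₁₂ := T.N₁₂
  mod₁ := Module.compHom T.N₁ P.θ₁.symm.toRingHom
  mod₂ := Module.compHom T.N₂ P.θ₂.symm.toRingHom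
  mod₁₂ := Module.compHom T.N₁₂ P.θ₁₂.symm.toRingHom
  ρ₁ :=
    letI := Module.compHom T.N₁ P.θ₁.symm.toRingHom
    letI := Module.compHom T.N₁₂ P.θ₁₂.symm.toRingHom
    { toFun := T.ρ₁
      map_add' := T.ρ₁.map_add
      map_smul' := fun r n => by
        change T.ρ₁ (P.θ₁.symm r • n) = P.θ₁₂.symm (rres _ P.𝒰.le₁ r) • T.ρ₁ n
        rw [T.ρ₁.map_smulₛₗ]
        congr 1
        apply P.θ₁₂.injective
        rw [RingEquiv.apply_symm_apply]
        exact (P.res₁ _).trans (by rw [RingEquiv.apply_symm_apply]) }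
  ρ₂ :=
    letI := Module.compHom T.N₂ P.θ₂.symm.toRingHom
    letI := Module.compHom T.N₁₂ P.θ₁₂.symm.toRingHom
    { toFun := T.ρ₂
      map_add' := T.ρ₂.map_add
      map_smul' := fun r n => by
        change T.ρ₂ (P.θ₂.symm r • n) = P.θ₁₂.symm (rres _ P.𝒰.le₂ r) • T.ρ₂ n
        rw [T.ρ₂.map_smulₛₗ]
        congr 1
        apply P.θ₁₂.injective
        rw [RingEquiv.apply_symm_apply]
        exact (P.res₂ _).trans (by rw [RingEquiv.apply_symm_apply]) }

section smul

variable (P : ProdChart G A)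

lemma toTriple_smul₁ (T : GTriple P.𝒰) (r : G.𝔠.R₁ A) (n : (toTriple P T).N₁) :
    r • n = (show T.N₁ from (P.θ₁ r • (show T.N₁ from n))) := rfl
lemma toTriple_smul₂ (T : GTriple P.𝒰) (r : G.𝔠.R₂ A) (n : (toTriple P T).N₂) :
    r • n = (show T.N₂ from (P.θ₂ r • (show T.N₂ from n))) := rfl
lemma toTriple_smul₁₂ (T : GTriple P.𝒰) (r : G.𝔠.R₁₂ A) (n : (toTriple P T).N₁₂) :
    r • n = (show T.N₁₂ from (P.θ₁₂ r • (show T.N₁₂ from n))) := rfl

lemma ofTriple_smul₁ (T : Triple G.𝔠 A) (r : Γ(pullback c (sp k A), P.𝒰.U₁))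
    (n : (ofTriple P T).N₁) : r • n = (show T.N₁ from (P.θ₁.symm r • (show T.N₁ from n))) := rfl
lemma ofTriple_smul₂ (T : Triple G.𝔠 A) (r : Γ(pullback c (sp k A), P.𝒰.U₂))
    (n : (ofTriple P T).N₂) : r • n = (show T.N₂ from (P.θ₂.symm r • (show T.N₂ from n))) := rfl
lemma ofTriple_smul₁₂ (T : Triple G.𝔠 A) (r : Γ(pullback c (sp k A), P.𝒰.U₁₂))
    (n : (ofTriple P T).N₁₂) :
    r • n = (show T.N₁₂ from (P.θ₁₂.symm r • (show T.N₁₂ from n))) := rfl

end smul

section QC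

variable (P : ProdChart G A)

theorem toTriple_isQC {T : GTriple P.𝒰} (hT : T.IsQC) : (toTriple P T).IsQC where
  surj₁ n := by
    obtain ⟨m, n₁, h⟩ := hT.loc₁.surj n
    refine ⟨m, n₁, h.trans ?_⟩
    rw [toTriple_smul₁₂, map_pow, P.res₁, ← P.hx]
  inj₁ n₁ h := by
    obtain ⟨m, hm⟩ := hT.loc₁.inj n₁ h
    refine ⟨m, ?_⟩
    rw [toTriple_smul₁, map_pow, ← P.hx]
    exact hm
  surj₂ n := by
    obtain ⟨m, n₁, h⟩ := hT.loc₂.surj n
    refine ⟨m, n₁, h.trans ?_⟩
    rw [toTriple_smul₁₂, map_pow, P.res₂, ← P.hy]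
  inj₂ n₁ h := by
    obtain ⟨m, hm⟩ := hT.loc₂.inj n₁ h
    refine ⟨m, ?_⟩
    rw [toTriple_smul₂, map_pow, ← P.hy]
    exact hm

theorem ofTriple_isQC {T : Triple G.𝔠 A} (hT : T.IsQC) : (ofTriple P T).IsQC where
  loc₁ :=
    { surj := fun n => by
        obtain ⟨m, n₁, h⟩ := hT.surj₁ n
        refine ⟨m, n₁, h.trans ?_⟩
        rw [ofTriple_smul₁₂, map_pow, P.hx, ← P.res₁, RingEquiv.symm_apply_apply]
      inj := fun n₁ h => by
        obtain ⟨m, hm⟩ := hT.inj₁ n₁ h
        refine ⟨m, ?_⟩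
        rw [ofTriple_smul₁, map_pow, P.hx, RingEquiv.symm_apply_apply]
        exact hm }
  loc₂ :=
    { surj := fun n => by
        obtain ⟨m, n₁, h⟩ := hT.surj₂ n
        refine ⟨m, n₁, h.trans ?_⟩
        rw [ofTriple_smul₁₂, map_pow, P.hy, ← P.res₂, RingEquiv.symm_apply_apply]
      inj := fun n₁ h => by
        obtain ⟨m, hm⟩ := hT.inj₂ n₁ h
        refine ⟨m, ?_⟩
        rw [ofTriple_smul₂, map_pow, P.hy, RingEquiv.symm_apply_apply]
        exact hm }

end QC

section Iso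

variable (P : ProdChart G A)

/-- Transport of isomorphisms. -/
noncomputable def toTripleIso {T T' : GTriple P.𝒰} (e : GTriple.Iso T T') :
    Triple.Iso (toTriple P T) (toTriple P T') where
  e₁ := { e.e₁.toAddEquiv with map_smul' := fun r n => e.e₁.map_smul (P.θ₁ r) n }
  e₂ := { e.e₂.toAddEquiv with map_smul' := fun r n => e.e₂.map_smul (P.θ₂ r) n }
  e₁₂ := { e.e₁₂.toAddEquiv with map_smul' := fun r n => e.e₁₂.map_smul (P.θ₁₂ r) n }
  comm₁ := e.comm₁
  comm₂ := e.comm₂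

/-- Transport of isomorphisms, backwards. -/
noncomputable def ofToTripleIso {T T' : GTriple P.𝒰}
    (e : Triple.Iso (toTriple P T) (toTriple P T')) : GTriple.Iso T T' where
  e₁ := { e.e₁.toAddEquiv with
    map_smul' := fun r n => by
      have := e.e₁.map_smul (P.θ₁.symm r) n
      rw [toTriple_smul₁, toTriple_smul₁, RingEquiv.apply_symm_apply] at this
      exact this }
  e₂ := { e.e₂.toAddEquiv with
    map_smul' := fun r n => by
      have := e.e₂.map_smul (P.θ₂.symm r) n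
      rw [toTriple_smul₂, toTriple_smul₂, RingEquiv.apply_symm_apply] at this
      exact this }
  e₁₂ := { e.e₁₂.toAddEquiv with
    map_smul' := fun r n => by
      have := e.e₁₂.map_smul (P.θ₁₂.symm r) n
      rw [toTriple_smul₁₂, toTriple_smul₁₂, RingEquiv.apply_symm_apply] at this
      exact this }
  comm₁ := e.comm₁
  comm₂ := e.comm₂

/-- `toTriple ∘ ofTriple` is the identity up to isomorphism. -/
noncomputable def toOfTripleIso (T : Triple G.𝔠 A) : Triple.Iso (toTriple P (ofTriple P T)) T where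
  e₁ := { AddEquiv.refl T.N₁ with
    map_smul' := fun r n => by
      change (show T.N₁ from P.θ₁.symm (P.θ₁ r) • (show T.N₁ from n)) = _
      rw [RingEquiv.symm_apply_apply]; rfl }
  e₂ := { AddEquiv.refl T.N₂ with
    map_smul' := fun r n => by
      change (show T.N₂ from P.θ₂.symm (P.θ₂ r) • (show T.N₂ from n)) = _
      rw [RingEquiv.symm_apply_apply]; rfl }
  e₁₂ := { AddEquiv.refl T.N₁₂ with
    map_smul' := fun r n => by
      change (show T.N₁₂ from P.θ₁₂.symm (P.θ₁₂ r) • (show T.N₁₂ from n)) = _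
      rw [RingEquiv.symm_apply_apply]; rfl }
  comm₁ := fun _ => rfl
  comm₂ := fun _ => rfl

end Iso

/-- Morphisms of sheaves of modules commute with restriction of sections. -/
lemma app_mres {X : Scheme.{u}} {M M' : X.Modules} (φ : M ⟶ M') {U V : X.Opens} (h : V ≤ U)
    (s : Γ(M, U)) : φ.app V (mres M h s) = mres M' h (φ.app U s) :=
  congr($(φ.mapPresheaf.naturality (homOfLE h).op) s)

/-- An isomorphism of sheaves of modules induces linear equivalences on sections. -/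
noncomputable def appEquiv {X : Scheme.{u}} {M M' : X.Modules} (e : M ≅ M') (U : X.Opens) :
    Γ(M, U) ≃ₗ[Γ(X, U)] Γ(M', U) :=
  { appₗ e.hom U with
    invFun := e.inv.app U
    left_inv := fun s => by
      change (e.inv.app U) ((e.hom.app U) s) = s
      rw [← ConcreteCategory.comp_apply, ← Scheme.Modules.Hom.comp_app, e.hom_inv_id]; rfl
    right_inv := fun s => by
      change (e.hom.app U) ((e.inv.app U) s) = s
      rw [← ConcreteCategory.comp_apply, ← Scheme.Modules.Hom.comp_app, e.inv_hom_id]; rfl }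

@[simp] lemma appEquiv_apply {X : Scheme.{u}} {M M' : X.Modules} (e : M ≅ M') (U : X.Opens)
    (s : Γ(M, U)) : appEquiv e U s = e.hom.app U s := rfl

/-- An isomorphism of sheaves of modules induces an isomorphism of section triples. -/
noncomputable def gsecIso {X : Scheme.{u}} (𝒰 : Cov2 X) {M M' : X.Modules} (e : M ≅ M') :
    GTriple.Iso (gsec 𝒰 M) (gsec 𝒰 M') where
  e₁ := appEquiv e 𝒰.U₁
  e₂ := appEquiv e 𝒰.U₂
  e₁₂ := appEquiv e 𝒰.U₁₂
  comm₁ := fun n => app_mres e.hom 𝒰.le₁ n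
  comm₂ := fun n => app_mres e.hom 𝒰.le₂ n

end Fermat.Agent.S25.Dict
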