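/-
S25 / block D (Dictionary), node FIB: sections of a fibre product in `X.Modules`.
Owner: helper237.
-/
import Fermat.Agent.S25.Mod.DictDefs

set_option autoImplicit false

universe u

open CategoryTheory CategoryTheory.Limits AlgebraicGeometry TopologicalSpace

namespace Fermat.Agent.S25.Dict

open Fermat.Agent.S25.Mod

variable {X : Scheme.{u}}

namespace FibProd

/-- sections over `V`, as a functor to types. -/
noncomputable abbrev secFunctor (X : Scheme.{u}) (V : X.Opens) : X.Modules ⥤ Type u :=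
  Scheme.Modules.toPresheaf X ⋙ (evaluation _ _).obj (Opposite.op V) ⋙ forget Ab

instance preservesCospan (V : X.Opens) :
    PreservesLimitsOfShape WalkingCospan (secFunctor X V) :=
  haveI : PreservesLimitsOfShape WalkingCospan
      ((evaluation (Opens ↥X)ᵒᵖ Ab.{u}).obj (Opposite.op V) ⋙ forget Ab.{u}) :=
    comp_preservesLimitsOfShape _ _
  comp_preservesLimitsOfShape _ _

/-- the square of sections of a fibre product is a pullback of types. -/
theorem isPullback_sec {F₁ F₂ F₀ : X.Modules} (a₁ : F₁ ⟶ F₀) (a₂ : F₂ ⟶ F₀) (V : X.Opens) :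
    IsPullback ((secFunctor X V).map (pullback.fst a₁ a₂))
      ((secFunctor X V).map (pullback.snd a₁ a₂))
      ((secFunctor X V).map a₁) ((secFunctor X V).map a₂) :=
  (IsPullback.of_hasPullback a₁ a₂).map (secFunctor X V)

end FibProd

open FibProd in
theorem pullback_app_ext {F₁ F₂ F₀ : X.Modules} (a₁ : F₁ ⟶ F₀) (a₂ : F₂ ⟶ F₀) (V : X.Opens)
    (s t : Γ(pullback a₁ a₂, V))
    (h₁ : (pullback.fst a₁ a₂).app V s = (pullback.fst a₁ a₂).app V t)
    (h₂ : (pullback.snd a₁ a₂).app V s = (pullback.snd a₁ a₂).app V t) : s = t :=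
  Types.ext_of_isPullback (isPullback_sec a₁ a₂ V) h₁ h₂

open FibProd in
theorem pullback_app_exists {F₁ F₂ F₀ : X.Modules} (a₁ : F₁ ⟶ F₀) (a₂ : F₂ ⟶ F₀) (V : X.Opens)
    (s₁ : Γ(F₁, V)) (s₂ : Γ(F₂, V)) (h : a₁.app V s₁ = a₂.app V s₂) :
    ∃ s : Γ(pullback a₁ a₂, V),
      (pullback.fst a₁ a₂).app V s = s₁ ∧ (pullback.snd a₁ a₂).app V s = s₂ :=
  Types.exists_of_isPullback (isPullback_sec a₁ a₂ V) s₁ s₂ h

end Fermat.Agent.S25.Dict
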