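/-
S25 / block D (Dictionary), part TWO: modules on a scheme covered by two affine opens whose
intersection is a basic open of both.  Owner: helper231 (task 747).

* `gsec_isQC`        : the sections triple of a quasi-coherent module is quasi-coherent;
* `exists_glue`      : every quasi-coherent triple is the sections triple of a quasi-coherent module;
* `iso_of_gsec_iso`  : an isomorphism of sections triples comes from an isomorphism of modules.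
-/
import Fermat.Agent.S25.Dict.QC
import Fermat.Agent.S25.Dict.Loc
import Fermat.Agent.S25.Dict.HomExt
import Fermat.Agent.S25.Dict.FibProd
import Fermat.Agent.S25.Mod.IsoCrit
import Fermat.Agent.S25.Mod.ExtSheaf

set_option autoImplicit false
set_option linter.style.haveILetI false

universe u

open CategoryTheory CategoryTheory.Limits AlgebraicGeometry TopologicalSpace

namespace Fermat.Agent.S25.Dict

open Fermat.Agent.S25.Mod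

namespace TwoCover

section Alg

variable {R R' : Type u} [CommRing R] [CommRing R'] {φ : R →+* R'} {f : R}
  {N N' N'' : Type u} [AddCommGroup N] [Module R N] [AddCommGroup N'] [Module R' N']
  [AddCommGroup N''] [Module R' N'']

/-- a linear map out of a localisation is determined on the image -/
theorem ext_of_comp {ρ : N →ₛₗ[φ] N'} (hρ : IsLocAt φ f ρ) (hu : IsUnit (φ f))
    (a b : N' →ₗ[R'] N'') (h : ∀ n, a (ρ n) = b (ρ n)) : a = b := by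
  ext n'
  obtain ⟨m, n₁, hn⟩ := hρ.surj n'
  have h1 := h n₁
  rw [hn, map_smul, map_smul] at h1
  exact (hu.pow m).smul_left_cancel.mp h1

/-- the universal property of a localisation -/
theorem exists_lift {ρ : N →ₛₗ[φ] N'} (hρ : IsLocAt φ f ρ) (hu : IsUnit (φ f))
    (hφ : ∀ r' : R', ∃ (m : ℕ) (r : R), φ r = (φ f) ^ m * r') (ρ' : N →ₛₗ[φ] N'') :
    ∃ a : N' →ₗ[R'] N'', ∀ n, a (ρ n) = ρ' n := by
  classical
  -- independence of the representative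
  have key : ∀ (m k : ℕ) (n₁ n₂ : N) (n' : N'), ρ n₁ = (φ f) ^ m • n' → ρ n₂ = (φ f) ^ k • n' →
      (φ f) ^ k • ρ' n₁ = (φ f) ^ m • ρ' n₂ := by
    intro m k n₁ n₂ n' h₁ h₂
    have h0 : ρ (f ^ k • n₁ - f ^ m • n₂) = 0 := by
      rw [map_sub, map_smulₛₗ, map_smulₛₗ, h₁, h₂, map_pow, map_pow, smul_smul, smul_smul,
        mul_comm, sub_self]
    obtain ⟨j, hj⟩ := hρ.inj _ h0
    have h3 := congrArg ρ' hj
    rw [map_smulₛₗ, map_zero, map_sub, map_smulₛₗ, map_smulₛₗ, map_pow, map_pow, map_pow] at h3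
    have h4 := ((hu.pow j).smul_eq_zero).mp h3
    exact sub_eq_zero.mp h4
  choose mm nn hmn using hρ.surj
  -- the value at `n'`
  have hex : ∀ n' : N', ∃ y : N'', (φ f) ^ (mm n') • y = ρ' (nn n') := by
    intro n'
    obtain ⟨v, hv⟩ := hu.pow (mm n')
    refine ⟨(↑v⁻¹ : R') • ρ' (nn n'), ?_⟩
    rw [← hv, smul_smul, Units.mul_inv, one_smul]
  choose F hF using hex
  have hK : ∀ (m : ℕ) (n₁ : N) (n' : N'), ρ n₁ = (φ f) ^ m • n' → (φ f) ^ m • F n' = ρ' n₁ := by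
    intro m n₁ n' h
    have h1 := key m (mm n') n₁ (nn n') n' h (hmn n')
    rw [← hF n', smul_smul, mul_comm, ← smul_smul] at h1
    exact ((hu.pow (mm n')).smul_left_cancel.mp h1).symm
  refine ⟨{ toFun := F, map_add' := ?_, map_smul' := ?_ }, ?_⟩
  · intro a b
    have h1 : ρ (f ^ (mm b) • nn a + f ^ (mm a) • nn b) = (φ f) ^ (mm a + mm b) • (a + b) := by
      rw [map_add, map_smulₛₗ, map_smulₛₗ, hmn a, hmn b, map_pow, map_pow, smul_smul, smul_smul,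
        smul_add, pow_add, mul_comm]
    have h2 := hK _ _ _ h1
    rw [map_add, map_smulₛₗ, map_smulₛₗ, ← hF a, ← hF b, map_pow, map_pow, smul_smul, smul_smul,
      ← pow_add, ← pow_add, add_comm (mm b), ← smul_add] at h2
    exact (hu.pow _).smul_left_cancel.mp h2
  · intro r' a
    obtain ⟨k, r, hr⟩ := hφ r'
    have h1 : ρ (r • nn a) = (φ f) ^ (k + mm a) • (r' • a) := by
      rw [map_smulₛₗ, hmn a, hr, smul_smul, smul_smul, pow_add]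
      congr 1; ring
    have h2 := hK _ _ _ h1
    rw [map_smulₛₗ, ← hF a, hr, smul_smul] at h2
    have h3 : (φ f) ^ k * r' * (φ f) ^ (mm a) = (φ f) ^ (k + mm a) * r' := by rw [pow_add]; ring
    rw [h3, ← smul_smul] at h2
    exact (hu.pow _).smul_left_cancel.mp h2
  · intro n
    have := hK 0 n (ρ n) (by rw [pow_zero, one_smul])
    rwa [pow_zero, one_smul] at this

/-- two localisations of the same module are canonically isomorphic -/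
theorem exists_equiv {ρ : N →ₛₗ[φ] N'} {ρ' : N →ₛₗ[φ] N''} (hρ : IsLocAt φ f ρ)
    (hρ' : IsLocAt φ f ρ') (hu : IsUnit (φ f))
    (hφ : ∀ r' : R', ∃ (m : ℕ) (r : R), φ r = (φ f) ^ m * r') :
    ∃ e : N' ≃ₗ[R'] N'', ∀ n, e (ρ n) = ρ' n := by
  obtain ⟨a, ha⟩ := exists_lift hρ hu hφ ρ'
  obtain ⟨b, hb⟩ := exists_lift hρ' hu hφ ρ
  have hab : a ∘ₗ b = LinearMap.id := ext_of_comp hρ' hu _ _ (fun n => by simp [ha, hb])
  have hba : b ∘ₗ a = LinearMap.id := ext_of_comp hρ hu _ _ (fun n => by simp [ha, hb])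
  exact ⟨LinearEquiv.ofLinearMap a b hab hba, fun n => ha n⟩

variable {M M' : Type u} [AddCommGroup M] [Module R M] [AddCommGroup M'] [Module R' M']

/-- conjugating a semilinear map by linear equivalences -/
def conj (ρ : N →ₛₗ[φ] N') (e : M ≃ₗ[R] N) (e' : N' ≃ₗ[R'] M') : M →ₛₗ[φ] M' where
  toFun s := e' (ρ (e s))
  map_add' a b := by rw [map_add, map_add, map_add]
  map_smul' r s := by rw [map_smul, map_smulₛₗ, map_smul]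

@[simp] theorem conj_apply (ρ : N →ₛₗ[φ] N') (e : M ≃ₗ[R] N) (e' : N' ≃ₗ[R'] M') (s : M) :
    conj ρ e e' s = e' (ρ (e s)) := rfl

theorem isLocAt_conj {ρ : N →ₛₗ[φ] N'} (hρ : IsLocAt φ f ρ) (e : M ≃ₗ[R] N)
    (e' : N' ≃ₗ[R'] M') : IsLocAt φ f (conj ρ e e') where
  surj n := by
    obtain ⟨m, n₁, h⟩ := hρ.surj (e'.symm n)
    refine ⟨m, e.symm n₁, ?_⟩
    rw [conj_apply, e.apply_symm_apply, h, map_smul, e'.apply_symm_apply]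
  inj n₁ h := by
    rw [conj_apply] at h
    have h1 : ρ (e n₁) = 0 := by simpa using h
    obtain ⟨m, hm⟩ := hρ.inj _ h1
    refine ⟨m, ?_⟩
    rw [← map_smul] at hm
    exact (LinearEquiv.map_eq_zero_iff e).mp hm

end Alg

section Sheaf

variable {X : Scheme.{u}}

/-- naturality of a morphism of modules, on sections -/
theorem app_mres {M N : X.Modules} (φ : M ⟶ N) {U V : X.Opens} (h : V ≤ U) (s : Γ(M, U)) :
    φ.app V (mres M h s) = mres N h (φ.app U s) :=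
  NatTrans.naturality_apply φ.mapPresheaf (homOfLE h).op s

theorem mres_mres (M : X.Modules) {U V W : X.Opens} (h : V ≤ U) (h' : W ≤ V) (s : Γ(M, U)) :
    mres M h' (mres M h s) = mres M (h'.trans h) s := by
  simp only [mres_apply]
  rw [← ConcreteCategory.comp_apply, ← Functor.map_comp]
  rfl

/-- flexible form of `ExtFrom` -/
theorem bijective_mres_of_extFrom {G : X.Modules} {U : X.Opens} (hG : ExtFrom G U)
    {V W : X.Opens} (hWV : W ≤ V) (hVW : V ⊓ U ≤ W) : Function.Bijective (mres G hWV) := by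
  have h1 : Function.Bijective (mres G (inf_le_left : V ⊓ U ≤ V)) := hG V
  have h2 : Function.Bijective (mres G (inf_le_left : W ⊓ U ≤ W)) := hG W
  have hle : W ⊓ U ≤ V ⊓ U := inf_le_inf_right U hWV
  have e1 : (mres G hVW : Γ(G, W) → Γ(G, V ⊓ U)) ∘ (mres G hWV) =
      mres G (inf_le_left : V ⊓ U ≤ V) := by
    funext s; exact mres_mres G hWV hVW s
  have e2 : (mres G hle : Γ(G, V ⊓ U) → Γ(G, W ⊓ U)) ∘ (mres G hVW) =
      mres G (inf_le_left : W ⊓ U ≤ W) := by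
    funext s; exact mres_mres G hVW hle s
  have h3 : Function.Injective (mres G hVW) := Function.Injective.of_comp (e2 ▸ h2.injective)
  have h4 : Function.Surjective (mres G hVW) := Function.Surjective.of_comp (e1 ▸ h1.surjective)
  have h5 : Function.Bijective (mres G hVW) := ⟨h3, h4⟩
  exact (Function.Bijective.of_comp_iff' h5 _).mp (e1 ▸ h1)

/-- the restriction to a basic open of an affine open is a localisation of rings -/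
theorem isUnit_rres {U : X.Opens} (hU : IsAffineOpen U) (f : Γ(X, U)) {V : X.Opens}
    (hV : V = X.basicOpen f) (hVU : V ≤ U) : IsUnit (rres X hVU f) := by
  have := hU.isLocalization_of_eq_basicOpen f (homOfLE hVU) hV
  letI : Algebra Γ(X, U) Γ(X, V) := (X.presheaf.map (homOfLE hVU).op).hom.toAlgebra
  exact IsLocalization.Away.algebraMap_isUnit f

theorem surj_rres {U : X.Opens} (hU : IsAffineOpen U) (f : Γ(X, U)) {V : X.Opens}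
    (hV : V = X.basicOpen f) (hVU : V ≤ U) (r' : Γ(X, V)) :
    ∃ (m : ℕ) (r : Γ(X, U)), rres X hVU r = (rres X hVU f) ^ m * r' := by
  have := hU.isLocalization_of_eq_basicOpen f (homOfLE hVU) hV
  letI : Algebra Γ(X, U) Γ(X, V) := (X.presheaf.map (homOfLE hVU).op).hom.toAlgebra
  obtain ⟨n, a, h⟩ := IsLocalization.Away.surj f r'
  exact ⟨n, a, by rw [mul_comm]; exact h.symm⟩

end Sheaf

section Glue

variable {X : Scheme.{u}} {𝒰 : Cov2 X}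

/-- The auxiliary sheaves `j₁_* Ñ₁ → j₁₂_* Ñ₁₂ ← j₂_* Ñ₂`. -/
structure Data (𝒰 : Cov2 X) (T : GTriple 𝒰) where
  G₁ : X.Modules
  G₂ : X.Modules
  G₀ : X.Modules
  ext₁ : ExtFrom G₁ 𝒰.U₁
  ext₂ : ExtFrom G₂ 𝒰.U₂
  ext₀ : ExtFrom G₀ 𝒰.U₁₂
  qc₁ : QCOn G₁ 𝒰.U₁
  qc₂ : QCOn G₂ 𝒰.U₂
  qc₀ : QCOn G₀ 𝒰.U₁₂
  ε₁ : Γ(G₁, 𝒰.U₁) ≃ₗ[Γ(X, 𝒰.U₁)] T.N₁
  ε₂ : Γ(G₂, 𝒰.U₂) ≃ₗ[Γ(X, 𝒰.U₂)] T.N₂
  ε₀ : Γ(G₀, 𝒰.U₁₂) ≃ₗ[Γ(X, 𝒰.U₁₂)] T.N₁₂
  a₁ : G₁ ⟶ G₀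
  a₂ : G₂ ⟶ G₀
  bij₁ : Function.Bijective (a₁.app 𝒰.U₁₂)
  bij₂ : Function.Bijective (a₂.app 𝒰.U₁₂)
  comm₁ : ∀ s, ε₀ (a₁.app 𝒰.U₁₂ (mres G₁ 𝒰.le₁ s)) = T.ρ₁ (ε₁ s)
  comm₂ : ∀ s, ε₀ (a₂.app 𝒰.U₁₂ (mres G₂ 𝒰.le₂ s)) = T.ρ₂ (ε₂ s)

/-- one of the two maps `a_i` -/
theorem exists_map {U : X.Opens} (hU : IsAffineOpen U) (f : Γ(X, U)) {V : X.Opens}
    (hV : V = X.basicOpen f) (hVU : V ≤ U) (hVaff : IsAffineOpen V)
    {N N₀ : Type u} [AddCommGroup N] [Module Γ(X, U) N] [AddCommGroup N₀] [Module Γ(X, V) N₀]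
    (ρ : N →ₛₗ[rres X hVU] N₀) (hρ : IsLocAt (rres X hVU) f ρ)
    (G G₀ : X.Modules) (qc : QCOn G U) (ext₀ : ExtFrom G₀ V)
    (ε : Γ(G, U) ≃ₗ[Γ(X, U)] N) (ε₀ : Γ(G₀, V) ≃ₗ[Γ(X, V)] N₀) :
    ∃ a : G ⟶ G₀, Function.Bijective (a.app V) ∧
      ∀ s, ε₀ (a.app V (mres G hVU s)) = ρ (ε s) := by
  have hu := isUnit_rres hU f hV hVU
  have hφ := surj_rres hU f hV hVU
  have h1 : IsLocAt (rres X hVU) f (mres G hVU) := QCOn.isLocAt qc hU f V hV hVU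
  have h2 : IsLocAt (rres X hVU) f (conj ρ ε ε₀.symm) := isLocAt_conj hρ ε ε₀.symm
  obtain ⟨lam, hlam⟩ := exists_equiv h1 h2 hu hφ
  obtain ⟨a, ha, -⟩ := existsUnique_hom G G₀ hVaff (QCOn.mono qc hVU) ext₀ lam.toLinearMap
  refine ⟨a, ?_, fun s => ?_⟩
  · have : (a.app V : Γ(G, V) → Γ(G₀, V)) = lam := funext ha
    rw [this]
    exact lam.bijective
  · rw [ha]
    have := hlam s
    rw [conj_apply] at this
    change ε₀ (lam (mres G hVU s)) = _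
    rw [this, ε₀.apply_symm_apply]

theorem nonempty_data (T : GTriple 𝒰) (hT : T.IsQC) : Nonempty (Data 𝒰 T) := by
  obtain ⟨G₁, ext₁, qc₁, ⟨ε₁⟩⟩ := exists_extFrom 𝒰.aff₁ T.N₁
  obtain ⟨G₂, ext₂, qc₂, ⟨ε₂⟩⟩ := exists_extFrom 𝒰.aff₂ T.N₂
  obtain ⟨G₀, ext₀, qc₀, ⟨ε₀⟩⟩ := exists_extFrom 𝒰.aff₁₂ T.N₁₂
  obtain ⟨a₁, bij₁, comm₁⟩ := exists_map 𝒰.aff₁ 𝒰.x 𝒰.inter₁ 𝒰.le₁ 𝒰.aff₁₂ T.ρ₁ hT.loc₁
    G₁ G₀ qc₁ ext₀ ε₁ ε₀
  obtain ⟨a₂, bij₂, comm₂⟩ := exists_map 𝒰.aff₂ 𝒰.y 𝒰.inter₂ 𝒰.le₂ 𝒰.aff₁₂ T.ρ₂ hT.loc₂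
    G₂ G₀ qc₂ ext₀ ε₂ ε₀
  exact ⟨⟨G₁, G₂, G₀, ext₁, ext₂, ext₀, qc₁, qc₂, qc₀, ε₁, ε₂, ε₀, a₁, a₂, bij₁, bij₂,
    comm₁, comm₂⟩⟩

namespace Data

variable {T : GTriple 𝒰} (D : Data 𝒰 T)

/-- general form of Claim A -/
theorem bijective_app_aux {G G₀ : X.Modules} (a : G ⟶ G₀) {U U' U₀ : X.Opens}
    (hU₀ : U₀ = U' ⊓ U) (haff : IsAffineOpen U₀) (ext : ExtFrom G U) (ext₀ : ExtFrom G₀ U₀)
    (qc : QCOn G U₀) (qc₀ : QCOn G₀ U₀) (bij : Function.Bijective (a.app U₀))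
    {V : X.Opens} (hV : V ≤ U') : Function.Bijective (a.app V) := by
  have hW : V ⊓ U ≤ U₀ := hU₀ ▸ inf_le_inf_right U hV
  have h1 : Function.Bijective (a.app (V ⊓ U)) := bijective_app_of_le a haff qc qc₀ bij hW
  have h2 : Function.Bijective (mres G (inf_le_left : V ⊓ U ≤ V)) := ext V
  have h3 : Function.Bijective (mres G₀ (inf_le_left : V ⊓ U ≤ V)) :=
    bijective_mres_of_extFrom ext₀ inf_le_left
      (hU₀ ▸ (le_inf inf_le_left (inf_le_right.trans inf_le_right)))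
  have e : (mres G₀ (inf_le_left : V ⊓ U ≤ V) : Γ(G₀, V) → Γ(G₀, V ⊓ U)) ∘ (a.app V) =
      (a.app (V ⊓ U)) ∘ (mres G (inf_le_left : V ⊓ U ≤ V)) := by
    funext s
    exact (app_mres a inf_le_left s).symm
  exact (Function.Bijective.of_comp_iff' h3 _).mp (e ▸ h1.comp h2)

/-- Claim A -/
theorem bijective_a₂ {V : X.Opens} (hV : V ≤ 𝒰.U₁) : Function.Bijective (D.a₂.app V) :=
  bijective_app_aux D.a₂ rfl 𝒰.aff₁₂ D.ext₂ D.ext₀ (QCOn.mono D.qc₂ 𝒰.le₂) D.qc₀ D.bij₂ hV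

theorem bijective_a₁ {V : X.Opens} (hV : V ≤ 𝒰.U₂) : Function.Bijective (D.a₁.app V) :=
  bijective_app_aux D.a₁ (inf_comm _ _) 𝒰.aff₁₂ D.ext₁ D.ext₀ (QCOn.mono D.qc₁ 𝒰.le₁) D.qc₀
    D.bij₁ hV

/-- the glued sheaf -/
noncomputable abbrev P : X.Modules := pullback D.a₁ D.a₂

theorem condition_app (V : X.Opens) (s : Γ(D.P, V)) :
    D.a₁.app V ((pullback.fst D.a₁ D.a₂).app V s) =
      D.a₂.app V ((pullback.snd D.a₁ D.a₂).app V s) := by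
  have := congrArg (fun φ : D.P ⟶ D.G₀ => φ.app V s) (pullback.condition (f := D.a₁) (g := D.a₂))
  exact this

/-- Claim B -/
theorem bijective_fst {V : X.Opens} (hV : V ≤ 𝒰.U₁) :
    Function.Bijective ((pullback.fst D.a₁ D.a₂).app V) := by
  constructor
  · intro s t h
    refine pullback_app_ext D.a₁ D.a₂ V s t h ?_
    apply (D.bijective_a₂ hV).injective
    rw [← D.condition_app, ← D.condition_app, h]
  · intro s₁
    obtain ⟨s₂, hs₂⟩ := (D.bijective_a₂ hV).surjective (D.a₁.app V s₁)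
    obtain ⟨s, hs, -⟩ := pullback_app_exists D.a₁ D.a₂ V s₁ s₂ hs₂.symm
    exact ⟨s, hs⟩

theorem bijective_snd {V : X.Opens} (hV : V ≤ 𝒰.U₂) :
    Function.Bijective ((pullback.snd D.a₁ D.a₂).app V) := by
  constructor
  · intro s t h
    refine pullback_app_ext D.a₁ D.a₂ V s t ?_ h
    apply (D.bijective_a₁ hV).injective
    rw [D.condition_app, D.condition_app, h]
  · intro s₂
    obtain ⟨s₁, hs₁⟩ := (D.bijective_a₁ hV).surjective (D.a₂.app V s₂)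
    obtain ⟨s, -, hs⟩ := pullback_app_exists D.a₁ D.a₂ V s₁ s₂ hs₁
    exact ⟨s, hs⟩

theorem isQuasicoherent_P : D.P.IsQuasicoherent := by
  have h₁ : QCOn D.P 𝒰.U₁ :=
    QCOn.of_bijective (pullback.fst D.a₁ D.a₂) (fun V hV => D.bijective_fst hV) D.qc₁
  have h₂ : QCOn D.P 𝒰.U₂ :=
    QCOn.of_bijective (pullback.snd D.a₁ D.a₂) (fun V hV => D.bijective_snd hV) D.qc₂
  refine isQuasicoherent_of_cover D.P (ι := ULift.{u} Bool)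
    (fun b => cond b.down 𝒰.U₁ 𝒰.U₂) ?_ ?_
  · rw [eq_top_iff, ← 𝒰.cover]
    exact sup_le (le_iSup (fun b : ULift.{u} Bool => cond b.down 𝒰.U₁ 𝒰.U₂) ⟨true⟩)
      (le_iSup (fun b : ULift.{u} Bool => cond b.down 𝒰.U₁ 𝒰.U₂) ⟨false⟩)
  · rintro ⟨_ | _⟩
    · exact h₂
    · exact h₁

theorem isoP_comm₁ (n : Γ(D.P, 𝒰.U₁)) :
    D.ε₀ (D.a₁.app 𝒰.U₁₂ ((pullback.fst D.a₁ D.a₂).app 𝒰.U₁₂ (mres D.P 𝒰.le₁ n))) =
      T.ρ₁ (D.ε₁ ((pullback.fst D.a₁ D.a₂).app 𝒰.U₁ n)) := by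
  rw [app_mres, D.comm₁]

theorem isoP_comm₂ (n : Γ(D.P, 𝒰.U₂)) :
    D.ε₀ (D.a₁.app 𝒰.U₁₂ ((pullback.fst D.a₁ D.a₂).app 𝒰.U₁₂ (mres D.P 𝒰.le₂ n))) =
      T.ρ₂ (D.ε₂ ((pullback.snd D.a₁ D.a₂).app 𝒰.U₂ n)) := by
  rw [D.condition_app, app_mres, D.comm₂]

/-- the sections of the glued sheaf -/
noncomputable def isoP : GTriple.Iso (gsec 𝒰 D.P) T where
  e₁ := (LinearEquiv.ofBijective (appₗ (pullback.fst D.a₁ D.a₂) 𝒰.U₁)
    (D.bijective_fst le_rfl)).trans D.ε₁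
  e₂ := (LinearEquiv.ofBijective (appₗ (pullback.snd D.a₁ D.a₂) 𝒰.U₂)
    (D.bijective_snd le_rfl)).trans D.ε₂
  e₁₂ := ((LinearEquiv.ofBijective (appₗ (pullback.fst D.a₁ D.a₂) 𝒰.U₁₂)
    (D.bijective_fst 𝒰.le₁)).trans
      (LinearEquiv.ofBijective (appₗ D.a₁ 𝒰.U₁₂) D.bij₁)).trans D.ε₀
  comm₁ n := D.isoP_comm₁ n
  comm₂ n := D.isoP_comm₂ n

/-- the composite `M → G_i → G₀` is determined by the triple -/
theorem comp_app_eq {M G G₀ : X.Modules} {U V : X.Opens} (hU : IsAffineOpen U) (f : Γ(X, U))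
    (hV : V = X.basicOpen f) (hVU : V ≤ U) (qM : QCOn M U)
    {N N₀ : Type u} [AddCommGroup N] [Module Γ(X, U) N] [AddCommGroup N₀] [Module Γ(X, V) N₀]
    (ρ : N →ₛₗ[rres X hVU] N₀)
    (ε : Γ(G, U) ≃ₗ[Γ(X, U)] N) (ε₀ : Γ(G₀, V) ≃ₗ[Γ(X, V)] N₀) (a : G ⟶ G₀)
    (comm : ∀ s, ε₀ (a.app V (mres G hVU s)) = ρ (ε s))
    (e : Γ(M, U) ≃ₗ[Γ(X, U)] N) (e₀ : Γ(M, V) ≃ₗ[Γ(X, V)] N₀)
    (hcomm : ∀ n, e₀ (mres M hVU n) = ρ (e n))
    (c : M ⟶ G) (hc : ∀ s, c.app U s = ε.symm (e s)) (s : Γ(M, V)) :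
    (c ≫ a).app V s = ε₀.symm (e₀ s) := by
  have hu := isUnit_rres hU f hV hVU
  have hloc : IsLocAt (rres X hVU) f (mres M hVU) := QCOn.isLocAt qM hU f V hV hVU
  have key : appₗ (c ≫ a) V = (e₀.trans ε₀.symm).toLinearMap := by
    refine ext_of_comp hloc hu _ _ (fun n => ?_)
    change a.app V (c.app V (mres M hVU n)) = ε₀.symm (e₀ (mres M hVU n))
    rw [app_mres, LinearEquiv.eq_symm_apply, comm, hc, ε.apply_symm_apply, hcomm]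
  exact congrArg (fun l : Γ(M, V) →ₗ[Γ(X, V)] Γ(G₀, V) => l s) key

theorem nonempty_iso_aux (M : X.Modules) (qM₁ : QCOn M 𝒰.U₁) (qM₂ : QCOn M 𝒰.U₂)
    (e₁ : Γ(M, 𝒰.U₁) ≃ₗ[Γ(X, 𝒰.U₁)] T.N₁) (e₂ : Γ(M, 𝒰.U₂) ≃ₗ[Γ(X, 𝒰.U₂)] T.N₂)
    (e₀ : Γ(M, 𝒰.U₁₂) ≃ₗ[Γ(X, 𝒰.U₁₂)] T.N₁₂)
    (h₁ : ∀ n, e₀ (mres M 𝒰.le₁ n) = T.ρ₁ (e₁ n))
    (h₂ : ∀ n, e₀ (mres M 𝒰.le₂ n) = T.ρ₂ (e₂ n)) : Nonempty (M ≅ D.P) := by
  obtain ⟨c₁, hc₁, -⟩ := existsUnique_hom M D.G₁ 𝒰.aff₁ qM₁ D.ext₁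
    (e₁.trans D.ε₁.symm).toLinearMap
  obtain ⟨c₂, hc₂, -⟩ := existsUnique_hom M D.G₂ 𝒰.aff₂ qM₂ D.ext₂
    (e₂.trans D.ε₂.symm).toLinearMap
  obtain ⟨c₀, -, huniq⟩ := existsUnique_hom M D.G₀ 𝒰.aff₁₂ (QCOn.mono qM₁ 𝒰.le₁) D.ext₀
    (e₀.trans D.ε₀.symm).toLinearMap
  have k₁ : c₁ ≫ D.a₁ = c₀ := huniq _ (fun s =>
    comp_app_eq 𝒰.aff₁ 𝒰.x 𝒰.inter₁ 𝒰.le₁ qM₁ T.ρ₁ D.ε₁ D.ε₀ D.a₁ D.comm₁ e₁ e₀ h₁ c₁ hc₁ s)
  have k₂ : c₂ ≫ D.a₂ = c₀ := huniq _ (fun s =>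
    comp_app_eq 𝒰.aff₂ 𝒰.y 𝒰.inter₂ 𝒰.le₂ qM₂ T.ρ₂ D.ε₂ D.ε₀ D.a₂ D.comm₂ e₂ e₀ h₂ c₂ hc₂ s)
  let c : M ⟶ D.P := pullback.lift c₁ c₂ (k₁.trans k₂.symm)
  have hfst : c ≫ pullback.fst D.a₁ D.a₂ = c₁ := pullback.lift_fst _ _ _
  have hsnd : c ≫ pullback.snd D.a₁ D.a₂ = c₂ := pullback.lift_snd _ _ _
  have b₁ : Function.Bijective (c₁.app 𝒰.U₁) := by
    have : (c₁.app 𝒰.U₁ : Γ(M, 𝒰.U₁) → Γ(D.G₁, 𝒰.U₁)) = (e₁.trans D.ε₁.symm) := funext hc₁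
    rw [this]; exact (e₁.trans D.ε₁.symm).bijective
  have b₂ : Function.Bijective (c₂.app 𝒰.U₂) := by
    have : (c₂.app 𝒰.U₂ : Γ(M, 𝒰.U₂) → Γ(D.G₂, 𝒰.U₂)) = (e₂.trans D.ε₂.symm) := funext hc₂
    rw [this]; exact (e₂.trans D.ε₂.symm).bijective
  have hb₁ : ∀ V ≤ 𝒰.U₁, Function.Bijective (c.app V) := by
    intro V hV
    have h3 : Function.Bijective (c₁.app V) := bijective_app_of_le c₁ 𝒰.aff₁ qM₁ D.qc₁ b₁ hV
    have e : ((pullback.fst D.a₁ D.a₂).app V : Γ(D.P, V) → Γ(D.G₁, V)) ∘ (c.app V) =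
        c₁.app V := by
      funext s
      exact congrArg (fun φ : M ⟶ D.G₁ => φ.app V s) hfst
    exact (Function.Bijective.of_comp_iff' (D.bijective_fst hV) _).mp (e ▸ h3)
  have hb₂ : ∀ V ≤ 𝒰.U₂, Function.Bijective (c.app V) := by
    intro V hV
    have h3 : Function.Bijective (c₂.app V) := bijective_app_of_le c₂ 𝒰.aff₂ qM₂ D.qc₂ b₂ hV
    have e : ((pullback.snd D.a₁ D.a₂).app V : Γ(D.P, V) → Γ(D.G₂, V)) ∘ (c.app V) =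
        c₂.app V := by
      funext s
      exact congrArg (fun φ : M ⟶ D.G₂ => φ.app V s) hsnd
    exact (Function.Bijective.of_comp_iff' (D.bijective_snd hV) _).mp (e ▸ h3)
  have : IsIso c := isIso_of_cover c 𝒰.U₁ 𝒰.U₂ 𝒰.cover hb₁ hb₂
  exact ⟨asIso c⟩

theorem nonempty_iso (M : X.Modules) [M.IsQuasicoherent] (e : GTriple.Iso (gsec 𝒰 M) T) :
    Nonempty (M ≅ D.P) :=
  D.nonempty_iso_aux M (QCOn.of_isQuasicoherent M _) (QCOn.of_isQuasicoherent M _)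
    e.e₁ e.e₂ e.e₁₂ e.comm₁ e.comm₂

end Data

/-- existence and uniqueness of the glued sheaf -/
theorem exists_glue' (T : GTriple 𝒰) (hT : T.IsQC) :
    ∃ P : X.Modules, P.IsQuasicoherent ∧ Nonempty (GTriple.Iso (gsec 𝒰 P) T) ∧
      ∀ (M : X.Modules) [M.IsQuasicoherent], GTriple.Iso (gsec 𝒰 M) T → Nonempty (M ≅ P) := by
  obtain ⟨D⟩ := nonempty_data T hT
  exact ⟨D.P, D.isQuasicoherent_P, ⟨D.isoP⟩, fun M _ e => D.nonempty_iso M e⟩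

/-- the identity isomorphism of a triple -/
def isoRefl (T : GTriple 𝒰) : GTriple.Iso T T where
  e₁ := LinearEquiv.refl _ _
  e₂ := LinearEquiv.refl _ _
  e₁₂ := LinearEquiv.refl _ _
  comm₁ _ := rfl
  comm₂ _ := rfl

end Glue

end TwoCover

open TwoCover

variable {X : Scheme.{u}}

theorem gsec_isQC (𝒰 : Cov2 X) (M : X.Modules) [M.IsQuasicoherent] : (gsec 𝒰 M).IsQC where
  loc₁ := QCOn.isLocAt (QCOn.of_isQuasicoherent M 𝒰.U₁) 𝒰.aff₁ 𝒰.x 𝒰.U₁₂ 𝒰.inter₁ 𝒰.le₁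
  loc₂ := QCOn.isLocAt (QCOn.of_isQuasicoherent M 𝒰.U₂) 𝒰.aff₂ 𝒰.y 𝒰.U₁₂ 𝒰.inter₂ 𝒰.le₂

theorem exists_glue (𝒰 : Cov2 X) (T : GTriple 𝒰) (hT : T.IsQC) :
    ∃ M : X.Modules, M.IsQuasicoherent ∧ Nonempty (GTriple.Iso (gsec 𝒰 M) T) := by
  obtain ⟨P, hP, hiso, -⟩ := exists_glue' T hT
  exact ⟨P, hP, hiso⟩

theorem iso_of_gsec_iso (𝒰 : Cov2 X) (M M' : X.Modules) [M.IsQuasicoherent] [M'.IsQuasicoherent]
    (e : GTriple.Iso (gsec 𝒰 M) (gsec 𝒰 M')) : Nonempty (M ≅ M') := by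
  obtain ⟨P, -, -, hP⟩ := exists_glue' (gsec 𝒰 M') (gsec_isQC 𝒰 M')
  obtain ⟨i⟩ := hP M e
  obtain ⟨i'⟩ := hP M' (isoRefl _)
  exact ⟨i ≪≫ i'.symm⟩

end Fermat.Agent.S25.Dict
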